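import Fermat.Agent.MUL.Lib.BadRed.Bridge.E1
import Fermat.Agent.MUL.Lib.BadRed.KroneckerCharpoly
import Fermat.Agent.MUL.Orig.Lib.GaussInt.FrobFormal
import Fermat.Agent.MUL.F3.EigenclassGlue

section MergeWrap_Lib_BadRed_Bridge_E1Sep -- from Lib/BadRed/Bridge/E1Sep.lean

set_option autoImplicit false

noncomputable section

namespace Fermat.Agent.BadRed

open ModularCurve AlgebraicCurve Fermat.Agent.F3 Fermat.Agent.F3G Fermat.Agent.GaussInt
  Fermat.Agent.AtkinLehner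

local notation "Qb" => AlgebraicClosure ℚ

section Series

variable (A : ValuationSubring Qb) (Q : ℕ)

/-- the series `j(q^a) - j(q^b)^Q` over `A`. -/
def sepSeries (a b : ℕ) [NeZero a] [NeZero b] : LaurentSeries A :=
  qExpand A a (jqModC A) - qExpand A b (jqModC A) ^ Q

theorem emb_sepSeries (a b : ℕ) [NeZero a] [NeZero b] :
    emb A (sepSeries A Q a b) =
      qExpand Qb a (jqModC Qb) - qExpand Qb b (jqModC Qb) ^ Q := by
  have h : emb A (jqModC A) = jqModC Qb := coeffMap_jqModC A.subtype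
  rw [sepSeries, map_sub, map_pow, Fermat.Agent.GaussIntFP.emb_qExpand,
    Fermat.Agent.GaussIntFP.emb_qExpand, h]

theorem red_sepSeries (a b : ℕ) [NeZero a] [NeZero b] :
    red A (sepSeries A Q a b) =
      qExpand (IsLocalRing.ResidueField A) a (jqModC (IsLocalRing.ResidueField A)) -
        qExpand (IsLocalRing.ResidueField A) b (jqModC (IsLocalRing.ResidueField A)) ^ Q := by
  have h : red A (jqModC A) = jqModC (IsLocalRing.ResidueField A) :=
    coeffMap_jqModC (IsLocalRing.residue A)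
  rw [sepSeries, map_sub, map_pow, Fermat.Agent.GaussIntFP.red_qExpand,
    Fermat.Agent.GaussIntFP.red_qExpand, h]

/-- Kronecker: `j(q^Q) ≡ j^Q`. -/
theorem red_sepSeries_Q_one [NeZero Q] (hQ : Q.Prime) (hA : A.LiesOverPrime Q) :
    red A (sepSeries A Q Q 1) = 0 := by
  rw [red_sepSeries, kc_qExpand_jbar A hQ hA, qExpand_one_apply, sub_self]

/-- `j - j(q^Q)^Q ≡ j̄ - j̄^{Q²} ≠ 0`. -/
theorem red_sepSeries_one_Q_ne_zero [NeZero Q] (hQ : Q.Prime) (hA : A.LiesOverPrime Q) :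
    red A (sepSeries A Q 1 Q) ≠ 0 := by
  rw [red_sepSeries, kc_qExpand_jbar A hQ hA, qExpand_one_apply, ← pow_mul]
  intro h
  have h1 := congrArg (fun g : LaurentSeries (IsLocalRing.ResidueField A) =>
    g.coeff (-((Q * Q : ℕ) : ℤ))) h
  simp only [HahnSeries.coeff_sub, HahnSeries.coeff_zero] at h1
  rw [coeff_jqModC_pow_self] at h1
  have hlt : (-((Q * Q : ℕ) : ℤ)) < -1 := by
    have h2 : 2 ≤ Q := hQ.two_le
    have h3 : 4 ≤ Q * Q := by nlinarith
    have h4 : (4 : ℤ) ≤ ((Q * Q : ℕ) : ℤ) := by exact_mod_cast h3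
    linarith
  rw [coeff_jqModC_of_lt _ hlt, zero_sub] at h1
  exact one_ne_zero (neg_eq_zero.mp h1)

end Series

section Elements

variable (D : ALData) [NeZero D.Q]

/-- `x = j(q^Q) - j^Q`. -/
def sepX : FBar (D.Q * D.R) :=
  jF (D.Q * D.R) D.Q (Dvd.intro _ rfl) - jF (D.Q * D.R) 1 (one_dvd _) ^ D.Q

/-- `z = j - j(q^Q)^Q`. -/
def sepZ : FBar (D.Q * D.R) :=
  jF (D.Q * D.R) 1 (one_dvd _) - jF (D.Q * D.R) D.Q (Dvd.intro _ rfl) ^ D.Q

theorem atkinLehner_sepX : atkinLehner D (sepX D) = sepZ D := by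
  rw [sepX, sepZ, map_sub, map_pow, atkinLehner_jQ, atkinLehner_j]

theorem atkinLehner_sepZ : atkinLehner D (sepZ D) = sepX D := by
  rw [sepX, sepZ, map_sub, map_pow, atkinLehner_jQ, atkinLehner_j]

variable (A : ValuationSubring Qb)

theorem coe_sepX : ((sepX D : FBar (D.Q * D.R)) : LaurentSeries Qb) =
    emb A (sepSeries A D.Q D.Q 1) := by
  rw [emb_sepSeries]
  rfl

theorem coe_sepZ : ((sepZ D : FBar (D.Q * D.R)) : LaurentSeries Qb) =
    emb A (sepSeries A D.Q 1 D.Q) := by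
  rw [emb_sepSeries]
  rfl

variable {A}

theorem redAt_refl_sepX (hQ : D.Q.Prime) (hA : A.LiesOverPrime D.Q) :
    RedAt A (AlgEquiv.refl : FBar (D.Q * D.R) ≃ₐ[Qb] FBar (D.Q * D.R)) (sepX D) 0 := by
  have hmem : emb A (sepSeries A D.Q D.Q 1) ∈ modularFunctionFieldBar (D.Q * D.R) := by
    rw [← coe_sepX D A]
    exact (sepX D).2
  refine ⟨?_, ?_⟩
  · show ((sepX D : FBar (D.Q * D.R)) : LaurentSeries Qb) ∈ _
    rw [coe_sepX D A]
    exact emb_mem_gaussSub hmem
  · show gaussResFun A _ ((sepX D : FBar (D.Q * D.R)) : LaurentSeries Qb) = 0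
    rw [coe_sepX D A, gaussResFun_emb hmem]
    exact red_sepSeries_Q_one A D.Q hQ hA

theorem redAt_refl_sepZ :
    RedAt A (AlgEquiv.refl : FBar (D.Q * D.R) ≃ₐ[Qb] FBar (D.Q * D.R)) (sepZ D)
      (red A (sepSeries A D.Q 1 D.Q)) := by
  have hmem : emb A (sepSeries A D.Q 1 D.Q) ∈ modularFunctionFieldBar (D.Q * D.R) := by
    rw [← coe_sepZ D A]
    exact (sepZ D).2
  refine ⟨?_, ?_⟩
  · show ((sepZ D : FBar (D.Q * D.R)) : LaurentSeries Qb) ∈ _
    rw [coe_sepZ D A]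
    exact emb_mem_gaussSub hmem
  · show gaussResFun A _ ((sepZ D : FBar (D.Q * D.R)) : LaurentSeries Qb) = _
    rw [coe_sepZ D A, gaussResFun_emb hmem]

theorem redAt_atkinLehner_sepX :
    RedAt A (atkinLehner D) (sepX D) (red A (sepSeries A D.Q 1 D.Q)) := by
  have h := redAt_refl_sepZ D (A := A)
  refine ⟨?_, ?_⟩
  · rw [atkinLehner_sepX]
    exact h.1
  · rw [atkinLehner_sepX]
    exact h.2

theorem redAt_atkinLehner_sepZ (hQ : D.Q.Prime) (hA : A.LiesOverPrime D.Q) :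
    RedAt A (atkinLehner D) (sepZ D) 0 := by
  have h := redAt_refl_sepX D hQ hA
  refine ⟨?_, ?_⟩
  · rw [atkinLehner_sepZ]
    exact h.1
  · rw [atkinLehner_sepZ]
    exact h.2

end Elements

/-- **the separating element exists** (unconditionally). -/
theorem gaussSepAt (D : ALData) : GaussSepAt D := by
  intro hQ A hA
  have hne : NeZero D.Q := ⟨hQ.ne_zero⟩
  have hζ : red A (sepSeries A D.Q 1 D.Q) ≠ 0 := red_sepSeries_one_Q_ne_zero A D.Q hQ hA
  have h1 : RedAt A (AlgEquiv.refl : FBar (D.Q * D.R) ≃ₐ[Qb] FBar (D.Q * D.R))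
      (sepZ D / (sepX D + sepZ D)) 1 := by
    have h := (redAt_refl_sepZ D (A := A)).div
      ((redAt_refl_sepX D hQ hA).add (redAt_refl_sepZ D (A := A))) (by rw [zero_add]; exact hζ)
    rwa [zero_add, div_self hζ] at h
  have h2 : RedAt A (atkinLehner D) (sepZ D / (sepX D + sepZ D)) 0 := by
    have h := (redAt_atkinLehner_sepZ D hQ hA).div
      ((redAt_atkinLehner_sepX D (A := A)).add (redAt_atkinLehner_sepZ D hQ hA))
      (by rw [add_zero]; exact hζ)
    rwa [add_zero, zero_div] at h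
  exact ⟨sepZ D / (sepX D + sepZ D), h1.1, h1.2, h2.1, h2.2⟩

/-- **(E1), function form, unconditional in the separating element**:
`(∀ D, ToricKeyAt D) → InertiaPowSq N`. -/
theorem inertiaPowSq_of_toricKey (N : ℕ) [NeZero N]
    (hkey : ∀ D : ALData, D.Q * D.R = N → ToricKeyAt D) : InertiaPowSq N :=
  inertiaPowSq_of_toricKeyAt N (fun D _ => gaussSepAt D) hkey

end Fermat.Agent.BadRed
end
end MergeWrap_Lib_BadRed_Bridge_E1Sep
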