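import Mathlib
import Fermat.Agent.MUL.Lib.Kronecker.NormProd
import Fermat.Agent.MUL.Lib.BadRed.Bridge.FunTargets
import Fermat.Agent.MUL.Lib.BadRed.Bridge.E1
import Fermat.Agent.MUL.Orig.S22.GammaFG

section MergeWrap_Lib_BadRed_Bridge_AuxLevel -- from Lib/BadRed/Bridge/AuxLevel.lean

/-!
# Cluster T: descent of the function form of (T1) from an auxiliary level  (helper94)

`powSq_descend`: for a prime `ℓ ∤ N` and `n` prime to `ℓ + 1 = [F_{Nℓ} : F_N]`, the conclusion of
`InertiaPowSq` for `τ` at level `N ℓ` implies the conclusion at level `N`: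
if `f ∈ F_N` has divisor divisible by `n`, the same holds in `F_{Nℓ}`, so
`G = τ²f · f / (τ f)²` is an `n`-th power in `F_{Nℓ}`; taking norms, `G^{ℓ+1}` is an `n`-th power
in `F_N`, hence so is `G`.

Use: `q = 2`, `3 ∤ N`: `ℓ = 3`, `ℓ + 1 = 4`, `n` odd;  `q = 3`, `2 ∤ N`: `ℓ = 2`, `ℓ + 1 = 3`,
`3 ∤ n`.  At the level `N ℓ` the count of supersingular points `SSCount23.lean` applies.
-/

set_option autoImplicit false
set_option linter.unusedSectionVars false
set_option linter.style.haveILetI false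

noncomputable section

open AlgebraicCurve ModularCurve

namespace Fermat.Agent.BadRed.AuxLevel

open Fermat.Agent.F3G

local notation "Qb" => AlgebraicClosure ℚ

/-- if `G ^ d` is an `n`-th power and `gcd(d, n) = 1` then `G` is an `n`-th power. -/
theorem exists_pow_eq_of_coprime {F : Type*} [Field F] {G v : F} {d n : ℕ} (hG : G ≠ 0)
    (hcop : Nat.Coprime d n) (h : v ^ n = G ^ d) : ∃ u : F, u ^ n = G := by
  rcases Nat.eq_zero_or_pos n with hn | hn
  · subst hn
    have hd : d = 1 := by simpa using hcop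
    subst hd
    rw [pow_zero, pow_one] at h
    exact ⟨1, by rw [pow_zero, h]⟩
  have hv : v ≠ 0 := by
    rintro rfl
    rw [zero_pow hn.ne'] at h
    exact pow_ne_zero d hG h.symm
  obtain ⟨a, b, hab⟩ := Nat.Coprime.isCoprime hcop
  refine ⟨v ^ a * G ^ b, ?_⟩
  have e1 : (v ^ a) ^ n = G ^ ((d : ℤ) * a) := by
    rw [← zpow_natCast (v ^ a) n, ← zpow_mul, mul_comm a (n : ℤ), zpow_mul, zpow_natCast, h,
      ← zpow_natCast G d, ← zpow_mul]
  have e2 : (G ^ b) ^ n = G ^ (b * (n : ℤ)) := by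
    rw [← zpow_natCast (G ^ b) n, ← zpow_mul]
  rw [mul_pow, e1, e2, ← zpow_add₀ hG]
  have : (d : ℤ) * a + b * n = 1 := by linarith
  rw [this, zpow_one]

section Descent

set_option synthInstance.maxHeartbeats 400000
set_option maxHeartbeats 1000000

variable (N ℓ : ℕ) [NeZero N] [NeZero ℓ]

/-- the Galois action commutes with the inclusion `F_N ⊆ F_{Nℓ}`. -/
theorem galFun_heckeAlphaBar (τ : Qb ≃ₐ[ℚ] Qb) (x : FBar N) :
    galFun (N * ℓ) τ (heckeAlphaBar Qb N ℓ x) = heckeAlphaBar Qb N ℓ (galFun N τ x) := by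
  apply Subtype.ext
  rw [coe_arithmeticGalois_smul, coe_heckeAlphaBar, coe_heckeAlphaBar, coe_arithmeticGalois_smul]

/-- **descent from the auxiliary level** `N ℓ` (`ℓ ∤ N` prime, `n` prime to `ℓ + 1`). -/
theorem powSq_descend (hℓ : ℓ.Prime) (hℓN : ¬ ℓ ∣ N) (n : ℕ) (hcop : Nat.Coprime (ℓ + 1) n)
    (τ : Qb ≃ₐ[ℚ] Qb)
    (h : ∀ f' : FBar (N * ℓ), f' ≠ 0 → (∀ P : Place Qb (FBar (N * ℓ)), (n : ℤ) ∣ P.ord f') →
        ∃ u : FBar (N * ℓ),
          u ^ n * galFun (N * ℓ) τ f' ^ 2 = galFun (N * ℓ) τ (galFun (N * ℓ) τ f') * f')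
    (f : FBar N) (hf : f ≠ 0) (hdiv : ∀ P : Place Qb (FBar N), (n : ℤ) ∣ P.ord f) :
    ∃ u : FBar N, u ^ n * galFun N τ f ^ 2 = galFun N τ (galFun N τ f) * f := by
  letI := (heckeAlphaBar Qb N ℓ).toRingHom.toAlgebra
  obtain ⟨hfd, hrank⟩ := Fermat.Agent.Kronecker.finrank_heckeAlphaBar N ℓ hℓ hℓN
  have hint : (heckeAlphaBar Qb N ℓ).toRingHom.IsIntegral := fun x =>
    (Algebra.IsIntegral.isIntegral (R := FBar N) x)
  have hφf : heckeAlphaBar Qb N ℓ f ≠ 0 := (map_ne_zero _).mpr hf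
  have hdiv' : ∀ P : Place Qb (FBar (N * ℓ)), (n : ℤ) ∣ P.ord (heckeAlphaBar Qb N ℓ f) := by
    intro P
    rw [Place.ord_restrictAlong (heckeAlphaBar Qb N ℓ) hint P f]
    exact Dvd.dvd.mul_left (hdiv _) _
  obtain ⟨u', hu'⟩ := h _ hφf hdiv'
  rw [galFun_heckeAlphaBar, galFun_heckeAlphaBar] at hu'
  -- take norms
  have hnorm := congrArg (Algebra.norm (FBar N)) hu'
  have e : ∀ x : FBar N, Algebra.norm (FBar N) (heckeAlphaBar Qb N ℓ x) = x ^ (ℓ + 1) := by
    intro x
    have := Algebra.norm_algebraMap (S := FBar (N * ℓ)) x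
    rw [hrank] at this
    exact this
  rw [map_mul, map_pow, map_pow, map_mul, e, e, e] at hnorm
  have hτf : galFun N τ f ≠ 0 := by
    intro h0
    have := congrArg (galFun N τ⁻¹) h0
    apply hf
    have h1 : galFun N τ⁻¹ (galFun N τ f) = f := by
      show arithmeticGalois (modularFunctionFieldFull N) τ⁻¹ •
        (arithmeticGalois (modularFunctionFieldFull N) τ • f) = f
      rw [← mul_smul, ← map_mul, inv_mul_cancel, map_one, one_smul]
    rw [← h1, h0]
    show arithmeticGalois (modularFunctionFieldFull N) τ⁻¹ • (0 : FBar N) = 0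
    exact smul_zero _
  have hττf : galFun N τ (galFun N τ f) ≠ 0 := by
    intro h0
    apply hτf
    have h1 : galFun N τ⁻¹ (galFun N τ (galFun N τ f)) = galFun N τ f := by
      show arithmeticGalois (modularFunctionFieldFull N) τ⁻¹ •
        (arithmeticGalois (modularFunctionFieldFull N) τ • _) = _
      rw [← mul_smul, ← map_mul, inv_mul_cancel, map_one, one_smul]
    rw [← h1, h0]
    show arithmeticGalois (modularFunctionFieldFull N) τ⁻¹ • (0 : FBar N) = 0
    exact smul_zero _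
  set G : FBar N := galFun N τ (galFun N τ f) * f / galFun N τ f ^ 2 with hG
  have hG0 : G ≠ 0 := div_ne_zero (mul_ne_zero hττf hf) (pow_ne_zero 2 hτf)
  have hGd : (Algebra.norm (FBar N) u') ^ n = G ^ (ℓ + 1) := by
    rw [hG, div_pow, eq_div_iff (pow_ne_zero _ (pow_ne_zero 2 hτf)), mul_pow]
    linear_combination hnorm
  obtain ⟨u, hu⟩ := exists_pow_eq_of_coprime hG0 hcop hGd
  refine ⟨u, ?_⟩
  rw [hu, hG, div_mul_cancel₀ _ (pow_ne_zero 2 hτf)]

/-- `powSq_descend` for a level `M = N ℓ` (any form of the product). -/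
theorem powSq_descend_of_eq (M : ℕ) [NeZero M] (hM : M = N * ℓ) (hℓ : ℓ.Prime) (hℓN : ¬ ℓ ∣ N)
    (n : ℕ) (hcop : Nat.Coprime (ℓ + 1) n) (τ : Qb ≃ₐ[ℚ] Qb)
    (h : ∀ f' : FBar M, f' ≠ 0 → (∀ P : Place Qb (FBar M), (n : ℤ) ∣ P.ord f') →
        ∃ u : FBar M, u ^ n * galFun M τ f' ^ 2 = galFun M τ (galFun M τ f') * f')
    (f : FBar N) (hf : f ≠ 0) (hdiv : ∀ P : Place Qb (FBar N), (n : ℤ) ∣ P.ord f) :
    ∃ u : FBar N, u ^ n * galFun N τ f ^ 2 = galFun N τ (galFun N τ f) * f := by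
  subst hM
  exact powSq_descend N ℓ hℓ hℓN n hcop τ h f hf hdiv

end Descent

section Assembly

open Fermat.Agent.AtkinLehner

set_option synthInstance.maxHeartbeats 400000
set_option maxHeartbeats 1000000

/-- the Atkin–Lehner data at which the supersingular count is available: all `Q ≥ 5`, and
`Q = 2` with `3 ∣ R`, `Q = 3` with `2 ∣ R` (auxiliary level). -/
def AuxOK (D : ALData) : Prop := (D.Q = 2 → 3 ∣ D.R) ∧ (D.Q = 3 → 2 ∣ D.R)

/-- the conclusion of `InertiaPowSq` at one prime, from the toric key at `(q, R)`. -/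
theorem powSq_direct {q R : ℕ} [NeZero (q * R)] (hq : q.Prime) (hR : 0 < R)
    (hcop : Nat.Coprime q R) (haux : (q = 2 → 3 ∣ R) ∧ (q = 3 → 2 ∣ R))
    (hsep : ∀ D : ALData, AuxOK D → GaussSepAt D)
    (hkey : ∀ D : ALData, AuxOK D → ToricKeyAt D)
    (n : ℕ) (hqn : ¬ q ∣ n) (A : ValuationSubring Qb) (hA : A.LiesOverPrime q)
    (τ : Qb ≃ₐ[ℚ] Qb) (hτ : τ ∈ A.inertiaSubgroupIn ℚ)
    (f : FBar (q * R)) (hf : f ≠ 0) (hdiv : ∀ P : Place Qb (FBar (q * R)), (n : ℤ) ∣ P.ord f) :
    ∃ u : FBar (q * R),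
      u ^ n * galFun (q * R) τ f ^ 2 = galFun (q * R) τ (galFun (q * R) τ f) * f := by
  obtain ⟨D, hDQ, hDR⟩ := ALData.exists_of_coprime hq.pos hR hcop
  subst hDQ hDR
  exact pow_sq_of_toricKeyAt D hq (hsep D haux) (hkey D haux) n hqn A hA τ hτ f hf hdiv

/-- **(E1) with the auxiliary level**: the toric key lemma and the separating elements at the
data `D` with `AuxOK D` give `InertiaPowSq N` for EVERY level `N`: at `q = 2 ∥ N`, `3 ∤ N` descend
from the level `3 N`, at `q = 3 ∥ N`, `2 ∤ N` from the level `2 N`. -/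
theorem inertiaPowSq_of_toricKeyAt_aux
    (hsep : ∀ D : ALData, AuxOK D → GaussSepAt D)
    (hkey : ∀ D : ALData, AuxOK D → ToricKeyAt D) (N : ℕ) [NeZero N] : InertiaPowSq N := by
  intro n q hq hqN hq2 hqn A hA τ hτ f hf Ddiv hD
  have hdiv : ∀ P : Place Qb (FBar N), (n : ℤ) ∣ P.ord f := fun P => ⟨_, (hD P).symm⟩
  obtain ⟨R, rfl⟩ := hqN
  have hR0 : 0 < R := by
    rcases Nat.eq_zero_or_pos R with h | h
    · exfalso
      subst h
      exact NeZero.ne (q * 0) (mul_zero q)
    · exact h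
  have hcop : Nat.Coprime q R := by
    rw [Nat.Prime.coprime_iff_not_dvd hq]
    rintro ⟨k, rfl⟩
    exact hq2 ⟨k, by ring⟩
  by_cases h2 : q = 2
  · subst h2
    by_cases h3R : 3 ∣ R
    · exact powSq_direct hq hR0 hcop ⟨fun _ => h3R, fun h => absurd h (by norm_num)⟩ hsep hkey
        n hqn A hA τ hτ f hf hdiv
    · -- descend from the level `3 N`
      haveI : NeZero (3 : ℕ) := ⟨by norm_num⟩
      haveI : NeZero (2 * (R * 3)) := ⟨by positivity⟩
      have h3N : ¬ 3 ∣ 2 * R := by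
        intro h
        rcases (Nat.Prime.dvd_mul Nat.prime_three).mp h with h | h
        · norm_num at h
        · exact h3R h
      have hcop' : Nat.Coprime 2 (R * 3) :=
        Nat.Coprime.mul_right hcop (by norm_num)
      have hn4 : Nat.Coprime (3 + 1) n := by
        have : Nat.Coprime 2 n := (Nat.Prime.coprime_iff_not_dvd Nat.prime_two).mpr hqn
        have e : (3 + 1 : ℕ) = 2 ^ 2 := by norm_num
        rw [e]
        exact Nat.Coprime.pow_left 2 this
      refine powSq_descend_of_eq (2 * R) 3 (2 * (R * 3)) (by ring) Nat.prime_three h3N n hn4 τ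
        (fun f' hf' hdiv' => ?_) f hf hdiv
      exact powSq_direct hq (by positivity) hcop'
        ⟨fun _ => Dvd.intro_left R rfl, fun h => absurd h (by norm_num)⟩ hsep hkey
        n hqn A hA τ hτ f' hf' hdiv'
  · by_cases h3 : q = 3
    · subst h3
      by_cases h2R : 2 ∣ R
      · exact powSq_direct hq hR0 hcop ⟨fun h => absurd h (by norm_num), fun _ => h2R⟩ hsep hkey
          n hqn A hA τ hτ f hf hdiv
      · -- descend from the level `2 N`
        haveI : NeZero (2 : ℕ) := ⟨by norm_num⟩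
        haveI : NeZero (3 * (R * 2)) := ⟨by positivity⟩
        have h2N : ¬ 2 ∣ 3 * R := by
          intro h
          rcases (Nat.Prime.dvd_mul Nat.prime_two).mp h with h | h
          · norm_num at h
          · exact h2R h
        have hcop' : Nat.Coprime 3 (R * 2) :=
          Nat.Coprime.mul_right hcop (by norm_num)
        have hn3 : Nat.Coprime (2 + 1) n :=
          (Nat.Prime.coprime_iff_not_dvd Nat.prime_three).mpr hqn
        refine powSq_descend_of_eq (3 * R) 2 (3 * (R * 2)) (by ring) Nat.prime_two h2N n hn3 τ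
          (fun f' hf' hdiv' => ?_) f hf hdiv
        exact powSq_direct hq (by positivity) hcop'
          ⟨fun h => absurd h (by norm_num), fun _ => Dvd.intro_left R rfl⟩ hsep hkey
          n hqn A hA τ hτ f' hf' hdiv'
    · exact powSq_direct hq hR0 hcop ⟨fun h => absurd h h2, fun h => absurd h h3⟩ hsep hkey
        n hqn A hA τ hτ f hf hdiv

end Assembly

end Fermat.Agent.BadRed.AuxLevel
end
end MergeWrap_Lib_BadRed_Bridge_AuxLevel
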