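import Fermat.Agent.MUL.Lib.Kronecker.NormProd
import Fermat.Agent.MUL.Lib.Kronecker.ConjExp
import Fermat.Agent.MUL.F3.TorsFin.Final

section MergeWrap_Lib_BadRed_Bridge_NormProd -- from Lib/BadRed/Bridge/NormProd.lean

set_option autoImplicit false
set_option linter.style.haveILetI false

/-!
# Cluster T / S35, WP N1: the GENERAL norm product formula  (owner: helper36)

`ℓ` prime, `ℓ ∤ N`, `α : F_N ⊂ F_{Nℓ}`.  Cluster B (Lib/Kronecker) computes the norm of the elements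
`y(q^ℓ)`, `y ∈ F_N`.  Here: for EVERY `x ∈ F_{Nℓ}`

    `(Norm_α x)(q^ℓ) = x(q^ℓ) · ∏_{b < ℓ} (w x)(ζ^b q)`,

where `w x` is the expansion of the Atkin–Lehner transform of `x`.  To stay independent of the
construction of `w` (and of the order of the factors of the level), `w` enters as an arbitrary
ring homomorphism `Ψ : F_{Nℓ} → ℚ̄((q))` with the values of `w` on the generators
(`IsALExp`: `Ψ (j(q^d)) = j(q^{dℓ})`, `Ψ (j(q^{dℓ})) = j(q^d)` for `d ∣ N`).
-/

noncomputable section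

namespace Fermat.Agent.BadRed

open ModularCurve AlgebraicCurve Fermat.Agent.S24 Fermat.Agent.S24.EmbFHom Fermat.Agent.Kronecker
open scoped MatrixGroups

variable (N ℓ : ℕ) [NeZero N] [NeZero ℓ]

/-- `Ψ : F_{Nℓ} → ℚ̄((q))` has the values of (the expansion of) the Atkin–Lehner involution `w_ℓ`
on the constants and on the generators. -/
structure IsALExp (Ψ : ↥(modularFunctionFieldBar (N * ℓ)) →+* LaurentSeries Qb) : Prop where
  const : ∀ c : Qb, Ψ (algebraMap Qb _ c) = algebraMap Qb (LaurentSeries Qb) c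
  low : ∀ (d : ℕ) [NeZero d] [NeZero (d * ℓ)], d ∣ N →
    ∀ x : ↥(modularFunctionFieldBar (N * ℓ)),
      (x : LaurentSeries Qb) = qExpand Qb d (jqModC Qb) → Ψ x = qExpand Qb (d * ℓ) (jqModC Qb)
  high : ∀ (d : ℕ) [NeZero d] [NeZero (d * ℓ)], d ∣ N →
    ∀ x : ↥(modularFunctionFieldBar (N * ℓ)),
      (x : LaurentSeries Qb) = qExpand Qb (d * ℓ) (jqModC Qb) → Ψ x = qExpand Qb d (jqModC Qb)

variable {N ℓ}

omit [NeZero N] [NeZero ℓ] in
/-- a divisor of `N ℓ` is `d` or `d ℓ` with `d ∣ N`. -/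
theorem dvd_or_exists_mul_of_dvd_mul_prime (hℓ : ℓ.Prime) {d : ℕ} (hd : d ∣ N * ℓ) :
    d ∣ N ∨ ∃ d', d' ∣ N ∧ d = d' * ℓ := by
  by_cases h : ℓ ∣ d
  · obtain ⟨d', rfl⟩ := h
    right
    refine ⟨d', ?_, mul_comm _ _⟩
    rw [mul_comm ℓ d'] at hd
    exact Nat.dvd_of_mul_dvd_mul_right hℓ.pos hd
  · left
    exact (Nat.Coprime.dvd_mul_right
      ((Nat.Prime.coprime_iff_not_dvd hℓ).mpr h).symm).mp hd

/-- The expansion of the conjugate `γ_b • x` of an arbitrary `x ∈ F_{Nℓ}`. -/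
theorem expLL_smul_embHom_eq (hℓ : ℓ.Prime)
    (ζ : Qbˣ) (hζ : ζ ^ ℓ = 1) (γ : SL(2, ℤ)) (hγ : γ ∈ CongruenceSubgroup.Gamma0 N) (b : ℕ)
    (hexp : ∀ y : ↥(modularFunctionFieldBar N),
        expLL (N * ℓ) (γ • embHom (N * ℓ) (N * ℓ) dvd_rfl (heckeBetaBar Qb N ℓ y)) =
          qExpand Qb N (scaleL (ζ ^ b) (y : LaurentSeries Qb)))
    (Ψ : ↥(modularFunctionFieldBar (N * ℓ)) →+* LaurentSeries Qb) (hΨ : IsALExp N ℓ Ψ)
    (x : ↥(modularFunctionFieldBar (N * ℓ))) :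
    expLL (N * ℓ) (γ • embHom (N * ℓ) (N * ℓ) dvd_rfl x) =
      qExpand Qb N (scaleL (ζ ^ b) (Ψ x)) := by
  let Φ₁ : ↥(modularFunctionFieldBar (N * ℓ)) →+* LaurentSeries Qb :=
    (expLL (N * ℓ)).toRingHom.comp
      ((MulSemiringAction.toRingHom SL(2, ℤ) (LL (N * ℓ)) γ).comp
        (embHom (N * ℓ) (N * ℓ) dvd_rfl).toRingHom)
  let Φ₂ : ↥(modularFunctionFieldBar (N * ℓ)) →+* LaurentSeries Qb :=
    (qExpand Qb N).comp ((scaleL (ζ ^ b)).comp Ψ)
  have key : Φ₁ = Φ₂ := by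
    apply ringHom_ext_FBar
    · intro c
      show expLL (N * ℓ) (γ • embHom (N * ℓ) (N * ℓ) dvd_rfl (algebraMap Qb _ c)) =
        qExpand Qb N (scaleL (ζ ^ b) (Ψ (algebraMap Qb _ c)))
      rw [hΨ.const, AlgHom.commutes, Algebra.algebraMap_eq_smul_one, smul_comm, smul_one,
        ← Algebra.algebraMap_eq_smul_one, AlgHom.commutes, scaleL_algebraMap, qExpand_algebraMap]
    · intro d hdne hd
      show expLL (N * ℓ) (γ • embHom (N * ℓ) (N * ℓ) dvd_rfl (jdBar (N * ℓ) d hd)) =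
        qExpand Qb N (scaleL (ζ ^ b) (Ψ (jdBar (N * ℓ) d hd)))
      rcases dvd_or_exists_mul_of_dvd_mul_prime hℓ hd with hdN | ⟨d', hd'N, rfl⟩
      · -- `d ∣ N`: the generator lies in `F_N`, fixed by `γ`
        haveI : NeZero (d * ℓ) := ⟨Nat.mul_ne_zero (NeZero.ne d) (NeZero.ne ℓ)⟩
        have e1 : jdBar (N * ℓ) d hd = heckeAlphaBar Qb N ℓ (jdBar N d hdN) := by
          apply Subtype.ext
          rw [coe_heckeAlphaBar, coe_jdBar, coe_jdBar]
        rw [hΨ.low d hdN _ (coe_jdBar (N * ℓ) d hd), e1, embHom_heckeAlphaBar,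
          (mem_Gamma0_iff_smul_embHom N (N * ℓ) (dvd_mul_right N ℓ) γ).mp hγ, expLL_embHom,
          coe_jdBar, scaleL_qExpand, qExpand_qExpand, qExpand_qExpand]
        have hz : (ζ ^ b) ^ (d * ℓ) = 1 := by
          rw [← pow_mul, mul_comm b, mul_comm d, mul_assoc, pow_mul, hζ, one_pow]
        rw [hz, scaleL_one]
        exact qExpand_congr (by ring) _
      · -- `d = d' ℓ`: the generator is `β (j(q^{d'}))`
        have hd'0 : d' ≠ 0 := by
          rintro rfl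
          exact (NeZero.ne (0 * ℓ)) (zero_mul ℓ)
        haveI : NeZero d' := ⟨hd'0⟩
        have e1 : jdBar (N * ℓ) (d' * ℓ) hd = heckeBetaBar Qb N ℓ (jdBar N d' hd'N) := by
          apply Subtype.ext
          rw [coe_heckeBetaBar, coe_jdBar, coe_jdBar, qExpand_qExpand]
          exact qExpand_congr (mul_comm _ _) _
        rw [hΨ.high d' hd'N _ (coe_jdBar (N * ℓ) (d' * ℓ) hd), e1, hexp, coe_jdBar]
  exact RingHom.congr_fun key x

/-- **(N1) the general norm product formula.**  For every `x ∈ F_{Nℓ}`: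
`(Norm_α x)(q^ℓ) = x(q^ℓ) · ∏_{b<ℓ} (Ψ x)(ζ^b q)`, `Ψ` the Atkin–Lehner expansion. -/
theorem norm_product_formula_general (hℓ : ℓ.Prime) (hℓN : ¬ ℓ ∣ N)
    (h : ConjugateExpansions N ℓ) :
    ∃ ζ : Qbˣ, IsPrimitiveRoot ζ ℓ ∧
      ∀ (Ψ : ↥(modularFunctionFieldBar (N * ℓ)) →+* LaurentSeries Qb), IsALExp N ℓ Ψ →
        ∀ x : ↥(modularFunctionFieldBar (N * ℓ)),
          qExpand Qb ℓ ((Fermat.Agent.F3G.normAlong (heckeAlphaBar Qb N ℓ) x :
              ↥(modularFunctionFieldBar N)) : LaurentSeries Qb) =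
            qExpand Qb ℓ (x : LaurentSeries Qb) *
              ∏ b ∈ Finset.range ℓ, scaleL (ζ ^ b) (Ψ x) := by
  obtain ⟨ζ, hζ, γ, hγ, hexp⟩ := h
  refine ⟨ζ, hζ, fun Ψ hΨ x => ?_⟩
  obtain ⟨hfd, hrank⟩ := finrank_heckeAlphaBar N ℓ hℓ hℓN
  let g : Option (Fin ℓ) → SL(2, ℤ) := fun i => i.elim 1 (fun b => γ b)
  have hg : ∀ i, ∀ x : ↥(modularFunctionFieldBar N),
      g i • embHom N (N * ℓ) (dvd_mul_right N ℓ) x = embHom N (N * ℓ) (dvd_mul_right N ℓ) x := by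
    intro i x
    cases i with
    | none => exact one_smul _ _
    | some b => exact (mem_Gamma0_iff_smul_embHom N (N * ℓ) (dvd_mul_right N ℓ) (γ b)).mp (hγ b) x
  have hcoeff : ∀ i : Option (Fin ℓ),
      (expLL (N * ℓ) (g i • embHom (N * ℓ) (N * ℓ) dvd_rfl
        (heckeBetaBar Qb N ℓ (jBar N)))).coeff (-(N : ℤ))
        = i.elim 0 (fun b => (((ζ ^ (b : ℕ))⁻¹ : Qbˣ) : Qb)) := by
    intro i
    cases i with
    | none =>
      show (expLL (N * ℓ) ((1 : SL(2, ℤ)) • _)).coeff _ = 0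
      rw [one_smul]
      exact coeff_expLL_beta_jBar N ℓ hℓ.one_lt
    | some b =>
      show (expLL (N * ℓ) (γ b • _)).coeff _ = _
      rw [hexp b b.2 (jBar N)]
      exact coeff_qExpand_scaleL_jBar N (ζ ^ (b : ℕ))
  have hdist : ∀ i j : Option (Fin ℓ),
      (∀ x : ↥(modularFunctionFieldBar (N * ℓ)),
        g i • embHom (N * ℓ) (N * ℓ) dvd_rfl x = g j • embHom (N * ℓ) (N * ℓ) dvd_rfl x) →
      i = j := by
    intro i j hij
    have h1 := hcoeff i
    rw [hij (heckeBetaBar Qb N ℓ (jBar N)), hcoeff j] at h1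
    cases i with
    | none =>
      cases j with
      | none => rfl
      | some b' => exact absurd h1 (Units.ne_zero _)
    | some b =>
      cases j with
      | none => exact absurd h1.symm (Units.ne_zero _)
      | some b' =>
        have h2 : ζ ^ (b : ℕ) = ζ ^ (b' : ℕ) := by
          have := Units.ext h1
          exact (inv_inj.mp this).symm
        exact congrArg some (Fin.ext (hζ.pow_inj b.2 b'.2 h2))
  have hcard : (letI := (heckeAlphaBar Qb N ℓ).toRingHom.toAlgebra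
      Module.finrank ↥(modularFunctionFieldBar N) ↥(modularFunctionFieldBar (N * ℓ)))
        ≤ Fintype.card (Option (Fin ℓ)) := by
    rw [hrank, Fintype.card_option, Fintype.card_fin]
  have hprod := norm_hom_eq_prod_smul (Γ := SL(2, ℤ))
    (embHom N (N * ℓ) (dvd_mul_right N ℓ)) (embHom (N * ℓ) (N * ℓ) dvd_rfl)
    (heckeAlphaBar Qb N ℓ) (embHom_heckeAlphaBar N ℓ) hfd g hg hdist hcard x
  have h1 := congrArg (expLL (N * ℓ)) hprod
  rw [expLL_embHom, map_prod, Fintype.prod_option] at h1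
  have h2 : expLL (N * ℓ) (g none • embHom (N * ℓ) (N * ℓ) dvd_rfl x)
      = qExpand Qb (N * ℓ) (x : LaurentSeries Qb) := by
    show expLL (N * ℓ) ((1 : SL(2, ℤ)) • _) = _
    rw [one_smul]
    exact expLL_embHom _ _ _ x
  have h3 : ∀ b : Fin ℓ,
      expLL (N * ℓ) (g (some b) • embHom (N * ℓ) (N * ℓ) dvd_rfl x)
        = qExpand Qb N (scaleL (ζ ^ (b : ℕ)) (Ψ x)) :=
    fun b => expLL_smul_embHom_eq hℓ ζ hζ.pow_eq_one (γ b) (hγ b) b (hexp b b.2) Ψ hΨ x
  rw [h2, Finset.prod_congr rfl (fun b _ => h3 b),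
    Fin.prod_univ_eq_prod_range
      (fun b => qExpand Qb N (scaleL (ζ ^ b) (Ψ x))) ℓ] at h1
  apply qExpand_injective (N := N)
  rw [qExpand_qExpand, map_mul, map_prod, qExpand_qExpand]
  exact h1

end Fermat.Agent.BadRed
end
end MergeWrap_Lib_BadRed_Bridge_NormProd
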