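import Fermat.Agent.MUL.Lib.BadRed.Bridge.E1
import Fermat.Agent.MUL.Lib.BadRed.Bridge.Assembly
import Fermat.Agent.MUL.Lib.BadRed.Nodal.Gluing.Main
import Fermat.Agent.MUL.Lib.BadRed.Nodal.Gluing.Inertia
import Fermat.Agent.MUL.Orig.Lib.BadRed.Bridge.NormRed
import Fermat.Agent.MUL.Lib.Kronecker.ConjGens2
import Fermat.Agent.MUL.Lib.Kronecker.KroneckerAux

section MergeWrap_Lib_BadRed_Bridge_FrobTargets -- from Lib/BadRed/Bridge/FrobTargets.lean

set_option autoImplicit false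

/-!
# Cluster T / S35: the FROBENIUS targets in function form  (helper36)

* `FrobToricKeyAt D` : function form of (P2) "`φ²` acts as `q²` on the toric part":
  for `N = Q R`, `Q = q` prime, `w = atkinLehner D`, `φ` a Frobenius element at a place `A | q` and
  `g` with `n ∣ div g` whose reductions for the two Gauss valuations `v_∞`, `v_0 = v_∞ ∘ w` are
  constants times `n`-th powers of residues of units:  `φ² g = u ^ n * g ^ (q²)`.
* `ModularNodal.FrobSq M` : the squares of the Frobenius elements at `A` are Frobenius-like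
  (`Gluing.IsFrobLike`, helper76) for the modular nodal package with `Q = q²`.
* `frobToricKeyAt_of_modularNodal` : the bridge (proved by helper76).
-/

noncomputable section

namespace Fermat.Agent.BadRed

open ModularCurve AlgebraicCurve Fermat.Agent.F3 Fermat.Agent.F3G Fermat.Agent.GaussInt
  Fermat.Agent.AtkinLehner Fermat.Agent.Deuring

local notation "Qb" => AlgebraicClosure ℚ

/-- **function form of (P2)**. -/
def FrobToricKeyAt (D : ALData) : Prop :=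
  D.Q.Prime → ∀ n : ℕ, ¬ D.Q ∣ n →
    ∀ A : ValuationSubring Qb, A.LiesOverPrime D.Q →
      ∀ φ : Qb ≃ₐ[ℚ] Qb, A.IsFrobeniusAt φ D.Q →
        ∀ g : FBar (D.Q * D.R), g ≠ 0 →
          (∀ P : Place Qb (FBar (D.Q * D.R)), (n : ℤ) ∣ P.ord g) →
          ∀ (K₁ K₂ : Qb) (e₁ e₂ : FBar (D.Q * D.R))
            (r₁ r₂ : LaurentSeries (IsLocalRing.ResidueField A)),
            K₁ ≠ 0 → K₂ ≠ 0 → r₁ ≠ 0 → r₂ ≠ 0 →
            RedAt A (AlgEquiv.refl : FBar (D.Q * D.R) ≃ₐ[Qb] FBar (D.Q * D.R)) e₁ r₁ →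
            RedAt A (AlgEquiv.refl : FBar (D.Q * D.R) ≃ₐ[Qb] FBar (D.Q * D.R))
              (algebraMap Qb (FBar (D.Q * D.R)) K₁ * g) (r₁ ^ n) →
            RedAt A (atkinLehner D) e₂ r₂ →
            RedAt A (atkinLehner D) (algebraMap Qb (FBar (D.Q * D.R)) K₂ * g) (r₂ ^ n) →
              ∃ u : FBar (D.Q * D.R),
                u ^ n * g ^ (D.Q ^ 2) = galFun (D.Q * D.R) φ (galFun (D.Q * D.R) φ g)

/-- the squares of the Frobenius elements at `A` are Frobenius-like for the modular nodal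
package, with `Q = q²`. -/
def ModularNodal.FrobSq {D : ALData} {A : ValuationSubring Qb} (M : ModularNodal D A) : Prop :=
  ∀ φ : Qb ≃ₐ[ℚ] Qb, A.IsFrobeniusAt φ D.Q →
    ∃ (τ₁ : M.Fk₁ →+* M.Fk₁) (τ₂ : M.Fk₂ →+* M.Fk₂),
      Gluing.IsFrobLike M.N
        (arithmeticGalois (modularFunctionFieldFull (D.Q * D.R)) (φ * φ)) (D.Q ^ 2) τ₁ τ₂

section Aux

variable {D : ALData} {A : ValuationSubring Qb} (M : ModularNodal D A)

/-- first valuation: membership from `RedAt`. -/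
theorem ModularNodal.mem₁_of_redAt {x : FBar (D.Q * D.R)}
    {r : LaurentSeries (IsLocalRing.ResidueField A)}
    (h : RedAt A (AlgEquiv.refl : FBar (D.Q * D.R) ≃ₐ[Qb] FBar (D.Q * D.R)) x r) :
    x ∈ M.N.S₁.Ov :=
  (M.mem₁_iff x).mpr h.1

theorem ModularNodal.red₁_of_redAt_one {x : FBar (D.Q * D.R)}
    (h : RedAt A (AlgEquiv.refl : FBar (D.Q * D.R) ≃ₐ[Qb] FBar (D.Q * D.R)) x 1) :
    M.N.S₁.red x = 1 :=
  M.red₁_eq_one x (M.mem₁_of_redAt h) h.2

theorem ModularNodal.mem₂_of_redAt {x : FBar (D.Q * D.R)}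
    {r : LaurentSeries (IsLocalRing.ResidueField A)}
    (h : RedAt A (atkinLehner D) x r) : x ∈ M.N.S₂.Ov :=
  (M.mem₂_iff x).mpr ((M.mem₁_iff _).mpr h.1)

theorem ModularNodal.red₂_of_redAt_one {x : FBar (D.Q * D.R)}
    (h : RedAt A (atkinLehner D) x 1) : M.N.S₂.red x = 1 :=
  M.red₂_eq_one x (M.mem₂_of_redAt h) (M.red₁_eq_one _ ((M.mem₁_iff _).mpr h.1) h.2)

/-- first valuation: `red (K g) = (red e) ^ n` and `red e ≠ 0`. -/
theorem ModularNodal.red₁_pow_of_redAt {n : ℕ} {x e : FBar (D.Q * D.R)}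
    {r : LaurentSeries (IsLocalRing.ResidueField A)} (hr : r ≠ 0)
    (he : RedAt A (AlgEquiv.refl : FBar (D.Q * D.R) ≃ₐ[Qb] FBar (D.Q * D.R)) e r)
    (hx : RedAt A (AlgEquiv.refl : FBar (D.Q * D.R) ≃ₐ[Qb] FBar (D.Q * D.R)) x (r ^ n)) :
    M.N.S₁.red e ≠ 0 ∧ M.N.S₁.red x = M.N.S₁.red e ^ n := by
  have he0 : e ≠ 0 := he.ne_zero hr
  have hemem := M.mem₁_of_redAt he
  have heinv := M.mem₁_of_redAt (he.inv hr)
  have hy : RedAt A (AlgEquiv.refl : FBar (D.Q * D.R) ≃ₐ[Qb] FBar (D.Q * D.R)) (x / e ^ n) 1 := by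
    have := hx.div (he.pow n) (pow_ne_zero n hr)
    rwa [div_self (pow_ne_zero n hr)] at this
  have hy1 := M.red₁_of_redAt_one hy
  have hymem := M.mem₁_of_redAt hy
  refine ⟨M.N.S₁.red_ne_zero hemem heinv he0, ?_⟩
  have e1 : x = (x / e ^ n) * e ^ n := by
    rw [div_mul_cancel₀ _ (pow_ne_zero n he0)]
  rw [e1, M.N.S₁.red_mul hymem (pow_mem hemem n), hy1, one_mul, M.N.S₁.red_pow hemem]

theorem ModularNodal.red₂_pow_of_redAt {n : ℕ} {x e : FBar (D.Q * D.R)}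
    {r : LaurentSeries (IsLocalRing.ResidueField A)} (hr : r ≠ 0)
    (he : RedAt A (atkinLehner D) e r) (hx : RedAt A (atkinLehner D) x (r ^ n)) :
    M.N.S₂.red e ≠ 0 ∧ M.N.S₂.red x = M.N.S₂.red e ^ n := by
  have he0 : e ≠ 0 := he.ne_zero hr
  have hemem := M.mem₂_of_redAt he
  have heinv := M.mem₂_of_redAt (he.inv hr)
  have hy : RedAt A (atkinLehner D) (x / e ^ n) 1 := by
    have := hx.div (he.pow n) (pow_ne_zero n hr)
    rwa [div_self (pow_ne_zero n hr)] at this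
  have hy1 := M.red₂_of_redAt_one hy
  have hymem := M.mem₂_of_redAt hy
  refine ⟨M.N.S₂.red_ne_zero hemem heinv he0, ?_⟩
  have e1 : x = (x / e ^ n) * e ^ n := by
    rw [div_mul_cancel₀ _ (pow_ne_zero n he0)]
  rw [e1, M.N.S₂.red_mul hymem (pow_mem hemem n), hy1, one_mul, M.N.S₂.red_pow hemem]

end Aux

/-- **Bridge**: the modular nodal package with Frobenius-like `φ²` and the nodal key lemma give
`FrobToricKeyAt D`. -/
theorem frobToricKeyAt_of_modularNodal (D : ALData)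
    (h : D.Q.Prime → ∀ A : ValuationSubring Qb, A.LiesOverPrime D.Q →
      Infinite (IsLocalRing.ResidueField A) ∧
      ∃ M : ModularNodal D A, Gluing.KeyConcl M.N ∧ M.FrobSq) :
    FrobToricKeyAt D := by
  intro hQ n hn A hA φ hφ g hg0 hdiv K₁ K₂ e₁ e₂ r₁ r₂ hK₁ hK₂ hr₁ hr₂ he₁ hg₁ he₂ hg₂
  obtain ⟨hinf, M, hKey, hFrob⟩ := h hQ A hA
  obtain ⟨τ₁, τ₂, ht⟩ := hFrob φ hφ
  have hnn : n ≠ 0 := by
    rintro rfl
    exact hn (dvd_zero _)
  have hn0 : (n : Qb) ≠ 0 := by exact_mod_cast hnn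
  have hnA : ((n : Qb))⁻¹ ∈ M.N.S₁.A := by
    rw [M.A_eq]
    exact natCast_inv_mem_of_not_dvd' A hQ hA hn
  obtain ⟨hh₁, hred₁⟩ := M.red₁_pow_of_redAt hr₁ he₁ hg₁
  obtain ⟨hh₂, hred₂⟩ := M.red₂_pow_of_redAt hr₂ he₂ hg₂
  obtain ⟨c₀, hc₀⟩ := IsAlgClosed.exists_pow_nat_eq (K₁⁻¹ / K₂⁻¹) (Nat.pos_of_ne_zero hnn)
  have hc₀0 : c₀ ≠ 0 := by
    rintro rfl
    rw [zero_pow hnn] at hc₀
    exact div_ne_zero (inv_ne_zero hK₁) (inv_ne_zero hK₂) hc₀.symm
  have e₁' : g / algebraMap Qb (FBar (D.Q * D.R)) K₁⁻¹ =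
      algebraMap Qb (FBar (D.Q * D.R)) K₁ * g := by
    rw [map_inv₀, div_inv_eq_mul]
    exact mul_comm _ _
  have e₂' : g / algebraMap Qb (FBar (D.Q * D.R)) K₂⁻¹ =
      algebraMap Qb (FBar (D.Q * D.R)) K₂ * g := by
    rw [map_inv₀, div_inv_eq_mul]
    exact mul_comm _ _
  let d : Gluing.GData M.N n :=
    ⟨Gluing.kummerDiv M.N.S₁.hF g n, g, K₁⁻¹, K₂⁻¹, c₀, M.N.S₁.red e₁, M.N.S₂.red e₂,
      Gluing.kummerDiv_degree M.N.S₁.hF hnn hdiv, hg0, Gluing.kummerDiv_spec M.N.S₁.hF hdiv,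
      inv_ne_zero hK₁, inv_ne_zero hK₂, hc₀0, hh₁, hh₂, by rw [e₁']; exact hred₁,
      by rw [e₂']; exact hred₂, hc₀⟩
  obtain ⟨u, c, hc, hu⟩ := Gluing.exists_pow_mul_eq_smul hKey M.genusRel hn0 hnA ht d
  obtain ⟨b, hb⟩ := IsAlgClosed.exists_pow_nat_eq (c⁻¹) (Nat.pos_of_ne_zero hnn)
  refine ⟨algebraMap Qb (FBar (D.Q * D.R)) b * u, ?_⟩
  have hcF : algebraMap Qb (FBar (D.Q * D.R)) c ≠ 0 := by simpa using hc
  have hu' : u ^ n * g ^ (D.Q ^ 2) = algebraMap Qb (FBar (D.Q * D.R)) c *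
      (arithmeticGalois (modularFunctionFieldFull (D.Q * D.R)) (φ * φ) • g) := hu
  have hsmul : arithmeticGalois (modularFunctionFieldFull (D.Q * D.R)) (φ * φ) • g =
      galFun (D.Q * D.R) φ (galFun (D.Q * D.R) φ g) := by
    rw [map_mul, mul_smul]
  rw [mul_pow, ← map_pow, hb, mul_assoc, hu', ← mul_assoc, ← map_mul, inv_mul_cancel₀ hc, map_one,
    one_mul, hsmul]

end Fermat.Agent.BadRed
end
end MergeWrap_Lib_BadRed_Bridge_FrobTargets

section MergeWrap_Lib_BadRed_Bridge_P1 -- from Lib/BadRed/Bridge/P1.lean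

set_option autoImplicit false
set_option linter.style.haveILetI false
set_option linter.unusedSectionVars false

/-!
# Cluster T / S35, WP P1 (function form)  (owner: helper36)

`N = Q R`, `Q = q` prime, `w = atkinLehner D`, `A | q`, `φ` a Frobenius element at `A`.
Let `f ≠ 0` with the two norm relations (in expansion form, `Bridge/NormProd.lean`)

    `(c₁ u₁ⁿ)(q^ℓ) = f(q^ℓ) ∏_b (w f)(ζ^b q)`,     `(c₂ u₂ⁿ)(q^ℓ) = (w f)(q^ℓ) ∏_b f(ζ^b q)`

(`Norm_α f = c₁ u₁ⁿ`, `Norm_α (w f) = c₂ u₂ⁿ`).  Then `g := φ² f / f` satisfies the hypotheses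
of `FrobToricKeyAt D`: for both Gauss valuations `v_∞`, `v_0 = v_∞ ∘ w` a constant multiple of
`g` reduces to the `n`-th power of the residue of a unit (`exists_redAt_frobSq_div`).

Consequence (`frobQuartic_fun`): with `FrobToricKeyAt D`,
    `Uⁿ · (φ² f)^(q² + 1) = φ⁴ f · f^(q²)`.
-/

noncomputable section

namespace Fermat.Agent.BadRed

open ModularCurve AlgebraicCurve Fermat.Agent.F3 Fermat.Agent.F3G Fermat.Agent.GaussInt
  Fermat.Agent.AtkinLehner Fermat.Agent.Kronecker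

local notation "Qb" => AlgebraicClosure ℚ

section Frob

variable {N : ℕ} {A : ValuationSubring Qb} {ψ : FBar N ≃ₐ[Qb] FBar N} {x : FBar N}
  {r : LaurentSeries (IsLocalRing.ResidueField A)}

/-- FROBENIUS acts on residues through the coefficientwise Frobenius, for every valuation
`v_∞ ∘ ψ` with `ψ` Galois equivariant. -/
theorem RedAt.frob {q : ℕ} [Fact q.Prime] [CharP (IsLocalRing.ResidueField A) q]
    {φ : Qb ≃ₐ[ℚ] Qb} (hφ : A.IsFrobeniusAt φ q)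
    (hψ : ∀ z : FBar N, ψ (galFun N φ z) = galFun N φ (ψ z))
    (hx : RedAt A ψ x r) :
    RedAt A ψ (galFun N φ x) (coeffMap (frobenius (IsLocalRing.ResidueField A) q) r) := by
  obtain ⟨hx1, hx2⟩ := hx
  have hstab : ∀ y ∈ modularFunctionFieldBar N,
      coeffMap ((φ : Qb ≃ₐ[ℚ] Qb) : Qb →+* Qb) y ∈ modularFunctionFieldBar N := fun y hy =>
    coeffMap_mem_laurentBaseChange φ hy
  have e : ((ψ (galFun N φ x) : FBar N) : LaurentSeries Qb) =
      coeffMap ((φ : Qb ≃ₐ[ℚ] Qb) : Qb →+* Qb) ((ψ x : FBar N) : LaurentSeries Qb) := by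
    rw [hψ]
    exact coe_arithmeticGalois_smul _ φ (ψ x)
  refine ⟨?_, ?_⟩
  · rw [e]
    exact (gaussResFun_decomposition φ hφ.mem_decompositionSubgroup hstab hx1).1
  · rw [e]
    ext n
    rw [gaussResFun_frobenius_coeff φ hφ hstab hx1 n, hx2, coeffMap_coeff]
    rfl

/-- `RedAt` for `ψ` is `RedAt` for the identity at `ψ x`. -/
theorem redAt_refl_iff :
    RedAt A (AlgEquiv.refl : FBar N ≃ₐ[Qb] FBar N) (ψ x) r ↔ RedAt A ψ x r := Iff.rfl

theorem RedAt.congr {y : FBar N} (hx : RedAt A ψ x r) (h : x = y) : RedAt A ψ y r := h ▸ hx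

theorem RedAt.congr_res {s : LaurentSeries (IsLocalRing.ResidueField A)} (hx : RedAt A ψ x r)
    (h : r = s) : RedAt A ψ x s := h ▸ hx

end Frob

section General

variable {M : ℕ} [NeZero M] {A : ValuationSubring Qb}

/-- the constant `c` as an element of `F_M`. -/
local notation "cst" => algebraMap Qb (FBar M)

theorem coe_cst_mul (c : Qb) (x : FBar M) :
    ((cst c * x : FBar M) : LaurentSeries Qb) =
      algebraMap Qb (LaurentSeries Qb) c * (x : LaurentSeries Qb) := rfl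

theorem coe_cst_mul_pow (c : Qb) (x : FBar M) (n : ℕ) :
    ((cst c * x ^ n : FBar M) : LaurentSeries Qb) =
      algebraMap Qb (LaurentSeries Qb) c * (x : LaurentSeries Qb) ^ n := rfl

theorem galFun_cst_mul (φ : Qb ≃ₐ[ℚ] Qb) (c : Qb) (x : FBar M) :
    galFun M φ (cst c * x) = cst (φ c) * galFun M φ x := by
  rw [galFun_eq_ringAut, galFun_eq_ringAut, map_mul, arithmeticRingAut_algebraMap]

theorem galFun_div (φ : Qb ≃ₐ[ℚ] Qb) (x y : FBar M) :
    galFun M φ (x / y) = galFun M φ x / galFun M φ y := by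
  simp only [galFun_eq_ringAut, map_div₀]

theorem galFun_pow (φ : Qb ≃ₐ[ℚ] Qb) (x : FBar M) (n : ℕ) :
    galFun M φ (x ^ n) = galFun M φ x ^ n := by
  simp only [galFun_eq_ringAut, map_pow]

theorem galFun_ne_zero (φ : Qb ≃ₐ[ℚ] Qb) {x : FBar M} (hx : x ≠ 0) : galFun M φ x ≠ 0 := by
  rw [galFun_eq_ringAut]
  exact (map_ne_zero_iff _ (arithmeticRingAut _ φ).injective).mpr hx

/-- **(N2)** in `RedAt` form: the norm expansion identity gives the residue of the norm. -/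
theorem redAt_of_norm_expansion {q : ℕ} [Fact q.Prime] [CharP (IsLocalRing.ResidueField A) q]
    (hA : A.LiesOverPrime q) (ζ : Qbˣ) (hζ : IsPrimitiveRoot ζ q) {x y E : FBar M}
    {a b : LaurentSeries (IsLocalRing.ResidueField A)}
    (hx : RedAt A (AlgEquiv.refl : FBar M ≃ₐ[Qb] FBar M) x a) (ha : a ≠ 0)
    (hy : RedAt A (AlgEquiv.refl : FBar M ≃ₐ[Qb] FBar M) y b) (hb : b ≠ 0)
    (h : haveI : NeZero q := ⟨(Fact.out : q.Prime).ne_zero⟩
      qExpand Qb q (E : LaurentSeries Qb) =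
        qExpand Qb q (x : LaurentSeries Qb) *
          ∏ i ∈ Finset.range q, scaleL (ζ ^ i) (y : LaurentSeries Qb)) :
    RedAt A (AlgEquiv.refl : FBar M ≃ₐ[Qb] FBar M) E
      (a * coeffMap (frobenius (IsLocalRing.ResidueField A) q) b) := by
  have hq : q.Prime := Fact.out
  haveI : NeZero q := ⟨hq.ne_zero⟩
  have hx1 : (x : LaurentSeries Qb) ∈ gaussSub A (modularFunctionFieldBar M) := hx.1
  have hx2 : gaussResFun A (modularFunctionFieldBar M) (x : LaurentSeries Qb) = a := hx.2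
  have hy1 : (y : LaurentSeries Qb) ∈ gaussSub A (modularFunctionFieldBar M) := hy.1
  have hy2 : gaussResFun A (modularFunctionFieldBar M) (y : LaurentSeries Qb) = b := hy.2
  have hval : ∀ z : LaurentSeries Qb, z ∈ modularFunctionFieldBar M → z ≠ 0 → ∃ c : Qb, c ≠ 0 ∧
      algebraMap Qb (LaurentSeries Qb) c * z ∈ gaussSub A (modularFunctionFieldBar M) ∧
      gaussResFun A (modularFunctionFieldBar M) (algebraMap Qb (LaurentSeries Qb) c * z) ≠ 0 := by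
    intro z hz hz0
    exact valueGroupAt M q hq A hA ⟨z, hz⟩ (fun h0 => hz0 (congrArg Subtype.val h0))
  have key := gaussResFun_norm_formal A q (modularFunctionFieldBar M)
    (modularFunctionFieldBar M) (modularFunctionFieldBar M) hval ζ hζ
    (X := (x : LaurentSeries Qb)) (P := (y : LaurentSeries Qb)) (n₀ := (E : LaurentSeries Qb))
    hx1 (by rw [hx2]; exact ha) hy1 (by rw [hy2]; exact hb) E.2 h
  refine ⟨key.1, ?_⟩
  rw [← hx2, ← hy2]
  exact key.2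

/-- the product of the conjugates of a constant multiple. -/
theorem prod_scaleL_cst_mul (q : ℕ) (ζ : Qbˣ) (c : Qb) (y : LaurentSeries Qb) :
    ∏ i ∈ Finset.range q, scaleL (ζ ^ i) (algebraMap Qb (LaurentSeries Qb) c * y) =
      algebraMap Qb (LaurentSeries Qb) (c ^ q) * ∏ i ∈ Finset.range q, scaleL (ζ ^ i) y := by
  simp only [map_mul, scaleL_algebraMap]
  rw [Finset.prod_mul_distrib, Finset.prod_const, Finset.card_range, map_pow]

/-- the coefficientwise Frobenius is injective. -/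
theorem coeffMap_frobenius_ne_zero {q : ℕ} [Fact q.Prime]
    [CharP (IsLocalRing.ResidueField A) q] {r : LaurentSeries (IsLocalRing.ResidueField A)}
    (hr : r ≠ 0) : coeffMap (frobenius (IsLocalRing.ResidueField A) q) r ≠ 0 := by
  intro h
  apply hr
  have hinj := coeffMap_injective_of_injective (frobenius (IsLocalRing.ResidueField A) q)
    (frobenius (IsLocalRing.ResidueField A) q).injective
  exact hinj (by rw [h, map_zero])

/-- residue computation. -/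
theorem p1_res_alg {L : Type*} [Field L] (a p s : L) (ha : a ≠ 0) (hp : p ≠ 0) (hs : s ≠ 0) :
    s / a / (p * s / (a * p)) = 1 := by
  field_simp

/-- function computation. -/
theorem p1_fun_alg {L : Type*} [Field L] (A' X2 C x k2 g2 k1 u1 d : L) (n : ℕ)
    (hC : C ≠ 0) (hx : x ≠ 0) (hk2 : k2 ≠ 0) (hg2 : g2 ≠ 0) (hk1 : k1 ≠ 0) (hu1 : u1 ≠ 0) :
    A' * X2 / (C * x) / (k2 * g2 ^ n / (k1 * u1 ^ n)) * (d * (g2 / u1)) ^ n =
      A' / C * (k1 / k2) * d ^ n * (X2 / x) := by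
  have h1 : g2 ^ n ≠ 0 := pow_ne_zero n hg2
  have h2 : u1 ^ n ≠ 0 := pow_ne_zero n hu1
  rw [mul_pow, div_pow]
  field_simp

variable (w : FBar M ≃ₐ[Qb] FBar M)

/-- **(P1), function form, one valuation.**  `x`, `y` play the roles of `f`, `w f` (first
valuation) or `w f`, `f` (second valuation). -/
theorem exists_redAt_frobSq_div_aux {q : ℕ} [Fact q.Prime]
    [CharP (IsLocalRing.ResidueField A) q] (hA : A.LiesOverPrime q)
    {φ : Qb ≃ₐ[ℚ] Qb} (hφ : A.IsFrobeniusAt φ q) {n : ℕ} (hn : n ≠ 0)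
    (ζ : Qbˣ) (hζ : IsPrimitiveRoot ζ q) {x y u₁ u₂ : FBar M} (hx : x ≠ 0) (hy : y ≠ 0)
    {c₁ c₂ : Qb}
    (H1 : haveI : NeZero q := ⟨(Fact.out : q.Prime).ne_zero⟩
      qExpand Qb q ((cst c₁ * u₁ ^ n : FBar M) : LaurentSeries Qb) =
        qExpand Qb q (x : LaurentSeries Qb) *
          ∏ i ∈ Finset.range q, scaleL (ζ ^ i) (y : LaurentSeries Qb))
    (H2 : haveI : NeZero q := ⟨(Fact.out : q.Prime).ne_zero⟩
      qExpand Qb q ((cst c₂ * u₂ ^ n : FBar M) : LaurentSeries Qb) =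
        qExpand Qb q (y : LaurentSeries Qb) *
          ∏ i ∈ Finset.range q, scaleL (ζ ^ i) (x : LaurentSeries Qb)) :
    ∃ (K : Qb) (e : FBar M) (r : LaurentSeries (IsLocalRing.ResidueField A)), r ≠ 0 ∧
      e = cst K * (galFun M φ u₂ / u₁) ∧
      RedAt A (AlgEquiv.refl : FBar M ≃ₐ[Qb] FBar M) e r ∧
      ∃ K' : Qb, RedAt A (AlgEquiv.refl : FBar M ≃ₐ[Qb] FBar M)
        (cst K' * (galFun M φ (galFun M φ x) / x)) (r ^ n) := by
  have hq : q.Prime := Fact.out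
  haveI : NeZero q := ⟨hq.ne_zero⟩
  set Φ := coeffMap (frobenius (IsLocalRing.ResidueField A) q) with hΦ
  -- scaling to units
  obtain ⟨ca, hca0, a, ha0, hra⟩ := exists_scale_redAt hq hA
    (AlgEquiv.refl : FBar M ≃ₐ[Qb] FBar M) hx
  obtain ⟨cb, hcb0, b, hb0, hrb⟩ := exists_scale_redAt hq hA
    (AlgEquiv.refl : FBar M ≃ₐ[Qb] FBar M) hy
  -- the two norms
  have hE₁ : RedAt A (AlgEquiv.refl : FBar M ≃ₐ[Qb] FBar M)
      (cst (ca * cb ^ q * c₁) * u₁ ^ n) (a * Φ b) := by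
    refine redAt_of_norm_expansion hA ζ hζ hra ha0 hrb hb0 ?_
    rw [coe_cst_mul_pow, coe_cst_mul, coe_cst_mul, prod_scaleL_cst_mul,
      (qExpand Qb q).map_mul, (qExpand Qb q).map_mul, qExpand_algebraMap, qExpand_algebraMap,
      (algebraMap Qb (LaurentSeries Qb)).map_mul, (algebraMap Qb (LaurentSeries Qb)).map_mul]
    rw [coe_cst_mul_pow, (qExpand Qb q).map_mul, qExpand_algebraMap] at H1
    linear_combination (algebraMap Qb (LaurentSeries Qb) ca *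
      algebraMap Qb (LaurentSeries Qb) (cb ^ q)) * H1
  have hE₂ : RedAt A (AlgEquiv.refl : FBar M ≃ₐ[Qb] FBar M)
      (cst (cb * ca ^ q * c₂) * u₂ ^ n) (b * Φ a) := by
    refine redAt_of_norm_expansion hA ζ hζ hrb hb0 hra ha0 ?_
    rw [coe_cst_mul_pow, coe_cst_mul, coe_cst_mul, prod_scaleL_cst_mul,
      (qExpand Qb q).map_mul, (qExpand Qb q).map_mul, qExpand_algebraMap, qExpand_algebraMap,
      (algebraMap Qb (LaurentSeries Qb)).map_mul, (algebraMap Qb (LaurentSeries Qb)).map_mul]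
    rw [coe_cst_mul_pow, (qExpand Qb q).map_mul, qExpand_algebraMap] at H2
    linear_combination (algebraMap Qb (LaurentSeries Qb) cb *
      algebraMap Qb (LaurentSeries Qb) (ca ^ q)) * H2
  have hΦa0 : Φ a ≠ 0 := coeffMap_frobenius_ne_zero ha0
  have hΦb0 : Φ b ≠ 0 := coeffMap_frobenius_ne_zero hb0
  have hΦΦa0 : Φ (Φ a) ≠ 0 := coeffMap_frobenius_ne_zero hΦa0
  have hρ₁0 : a * Φ b ≠ 0 := mul_ne_zero ha0 hΦb0
  have hρ₂0 : b * Φ a ≠ 0 := mul_ne_zero hb0 hΦa0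
  have hE₁0 : cst (ca * cb ^ q * c₁) * u₁ ^ n ≠ 0 := hE₁.ne_zero hρ₁0
  have hE₂0 : cst (cb * ca ^ q * c₂) * u₂ ^ n ≠ 0 := hE₂.ne_zero hρ₂0
  have hu₁0 : u₁ ≠ 0 := by
    rintro rfl
    exact hE₁0 (by rw [zero_pow hn, mul_zero])
  have hu₂0 : u₂ ≠ 0 := by
    rintro rfl
    exact hE₂0 (by rw [zero_pow hn, mul_zero])
  have hk₁0 : cst (ca * cb ^ q * c₁) ≠ 0 := left_ne_zero_of_mul hE₁0
  have hk₂0 : cst (cb * ca ^ q * c₂) ≠ 0 := left_ne_zero_of_mul hE₂0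
  -- Frobenius
  have hφ₀ : ∀ z : FBar M, (AlgEquiv.refl : FBar M ≃ₐ[Qb] FBar M) (galFun M φ z) =
      galFun M φ ((AlgEquiv.refl : FBar M ≃ₐ[Qb] FBar M) z) := fun _ => rfl
  have hφφa : RedAt A (AlgEquiv.refl : FBar M ≃ₐ[Qb] FBar M)
      (galFun M φ (galFun M φ (cst ca * x))) (Φ (Φ a)) := (hra.frob hφ hφ₀).frob hφ hφ₀
  have hφE₂ : RedAt A (AlgEquiv.refl : FBar M ≃ₐ[Qb] FBar M)
      (galFun M φ (cst (cb * ca ^ q * c₂) * u₂ ^ n)) (Φ (b * Φ a)) := hE₂.frob hφ hφ₀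
  have hT : RedAt A (AlgEquiv.refl : FBar M ≃ₐ[Qb] FBar M)
      (galFun M φ (galFun M φ (cst ca * x)) / (cst ca * x) /
        (galFun M φ (cst (cb * ca ^ q * c₂) * u₂ ^ n) / (cst (ca * cb ^ q * c₁) * u₁ ^ n))) 1 := by
    have h := (hφφa.div hra ha0).div (hφE₂.div hE₁ hρ₁0)
      (div_ne_zero (coeffMap_frobenius_ne_zero hρ₂0) hρ₁0)
    refine h.congr_res ?_
    rw [map_mul]
    exact p1_res_alg a (Φ b) (Φ (Φ a)) ha0 hΦb0 hΦΦa0
  -- the unit `e`
  have he'0 : galFun M φ u₂ / u₁ ≠ 0 := div_ne_zero (galFun_ne_zero φ hu₂0) hu₁0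
  obtain ⟨d, hd0, r, hr0, hre⟩ := exists_scale_redAt hq hA
    (AlgEquiv.refl : FBar M ≃ₐ[Qb] FBar M) he'0
  refine ⟨d, cst d * (galFun M φ u₂ / u₁), r, hr0, rfl, hre, ?_⟩
  refine ⟨φ (φ ca) / ca * ((ca * cb ^ q * c₁) / φ (cb * ca ^ q * c₂)) * d ^ n, ?_⟩
  have h := hT.mul (hre.pow n)
  rw [one_mul] at h
  refine h.congr ?_
  have hcax : cst ca * x ≠ 0 := hra.ne_zero ha0
  have hcaF : cst ca ≠ 0 := left_ne_zero_of_mul hcax
  have hφk₂ : cst (φ (cb * ca ^ q * c₂)) ≠ 0 := by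
    have h1 := galFun_ne_zero φ hk₂0
    rwa [galFun_eq_ringAut, arithmeticRingAut_algebraMap] at h1
  have hφu₂ : galFun M φ u₂ ≠ 0 := galFun_ne_zero φ hu₂0
  rw [galFun_cst_mul, galFun_cst_mul, galFun_cst_mul, galFun_pow,
    p1_fun_alg _ _ _ _ _ _ _ _ _ n hcaF hx hφk₂ hφu₂ hk₁0 hu₁0]
  congr 1
  simp only [map_mul, map_div₀, map_pow]

/-- general-level form of `FrobToricKeyAt`: level `M`, involution `w`, prime `q`. -/
def FrobToricKeyFor (M : ℕ) (w : FBar M ≃ₐ[Qb] FBar M) (q : ℕ) : Prop :=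
  ∀ n : ℕ, ¬ q ∣ n →
    ∀ A : ValuationSubring Qb, A.LiesOverPrime q →
      ∀ φ : Qb ≃ₐ[ℚ] Qb, A.IsFrobeniusAt φ q →
        ∀ g : FBar M, g ≠ 0 →
          (∀ P : Place Qb (FBar M), (n : ℤ) ∣ P.ord g) →
          ∀ (K₁ K₂ : Qb) (e₁ e₂ : FBar M)
            (r₁ r₂ : LaurentSeries (IsLocalRing.ResidueField A)),
            K₁ ≠ 0 → K₂ ≠ 0 → r₁ ≠ 0 → r₂ ≠ 0 →
            RedAt A (AlgEquiv.refl : FBar M ≃ₐ[Qb] FBar M) e₁ r₁ →
            RedAt A (AlgEquiv.refl : FBar M ≃ₐ[Qb] FBar M)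
              (algebraMap Qb (FBar M) K₁ * g) (r₁ ^ n) →
            RedAt A w e₂ r₂ →
            RedAt A w (algebraMap Qb (FBar M) K₂ * g) (r₂ ^ n) →
              ∃ u : FBar M, u ^ n * g ^ (q ^ 2) = galFun M φ (galFun M φ g)

theorem frobToricKeyFor_of_at (D : ALData) (hQ : D.Q.Prime) (h : FrobToricKeyAt D) :
    FrobToricKeyFor (D.Q * D.R) (atkinLehner D) D.Q :=
  fun n hn A hA φ hφ g hg hdiv K₁ K₂ e₁ e₂ r₁ r₂ h1 h2 h3 h4 h5 h6 h7 h8 =>
    h hQ n hn A hA φ hφ g hg hdiv K₁ K₂ e₁ e₂ r₁ r₂ h1 h2 h3 h4 h5 h6 h7 h8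

/-- the final computation. -/
theorem p1_final_alg {L : Type*} [Field L] (u X2 X4 f : L) (n Q : ℕ) (hf : f ≠ 0)
    (hX2 : X2 ≠ 0) (h : u ^ n * (X2 / f) ^ Q = X4 / X2) :
    u ^ n * X2 ^ (Q + 1) = X4 * f ^ Q := by
  have hfQ : f ^ Q ≠ 0 := pow_ne_zero Q hf
  rw [div_pow] at h
  field_simp at h
  rw [pow_succ]
  linear_combination h

/-- **(P1) + (P2), function form**: the two norm relations and the Frobenius toric key give
`Uⁿ · (φ² f)^(q² + 1) = φ⁴ f · f^(q²)`. -/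
theorem frobQuartic_fun {q : ℕ} (hq : q.Prime) (hww : ∀ x : FBar M, w (w x) = x)
    (hkey : FrobToricKeyFor M w q) {n : ℕ} (hqn : ¬ q ∣ n)
    {A : ValuationSubring Qb} (hA : A.LiesOverPrime q)
    {φ : Qb ≃ₐ[ℚ] Qb} (hφ : A.IsFrobeniusAt φ q)
    (hwG : ∀ z : FBar M, w (galFun M φ z) = galFun M φ (w z))
    (ζ : Qbˣ) (hζ : IsPrimitiveRoot ζ q) {f u₁ u₂ : FBar M} (hf : f ≠ 0)
    (hdiv : ∀ P : Place Qb (FBar M), (n : ℤ) ∣ P.ord f) {c₁ c₂ : Qb}
    (H1 : haveI : NeZero q := ⟨hq.ne_zero⟩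
      qExpand Qb q ((cst c₁ * u₁ ^ n : FBar M) : LaurentSeries Qb) =
        qExpand Qb q (f : LaurentSeries Qb) *
          ∏ i ∈ Finset.range q, scaleL (ζ ^ i) ((w f : FBar M) : LaurentSeries Qb))
    (H2 : haveI : NeZero q := ⟨hq.ne_zero⟩
      qExpand Qb q ((cst c₂ * u₂ ^ n : FBar M) : LaurentSeries Qb) =
        qExpand Qb q ((w f : FBar M) : LaurentSeries Qb) *
          ∏ i ∈ Finset.range q, scaleL (ζ ^ i) (f : LaurentSeries Qb)) :
    ∃ U : FBar M,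
      U ^ n * galFun M φ (galFun M φ f) ^ (q ^ 2 + 1) =
        galFun M φ (galFun M φ (galFun M φ (galFun M φ f))) * f ^ (q ^ 2) := by
  haveI : Fact q.Prime := ⟨hq⟩
  haveI : CharP (IsLocalRing.ResidueField A) q := charP_residueField_of_liesOverPrime A q hq hA
  have hn : n ≠ 0 := by
    rintro rfl
    exact hqn (dvd_zero q)
  have hwf : w f ≠ 0 := (map_ne_zero_iff _ w.injective).mpr hf
  have hX2 : galFun M φ (galFun M φ f) ≠ 0 := galFun_ne_zero φ (galFun_ne_zero φ hf)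
  set g : FBar M := galFun M φ (galFun M φ f) / f with hg
  have hg0 : g ≠ 0 := div_ne_zero hX2 hf
  -- first valuation
  obtain ⟨-, e₁, r₁, hr₁0, -, hre₁, K₁, hred₁⟩ :=
    exists_redAt_frobSq_div_aux hA hφ hn ζ hζ hf hwf H1 H2
  -- second valuation
  obtain ⟨-, e₂', r₂, hr₂0, -, hre₂', K₂, hred₂'⟩ :=
    exists_redAt_frobSq_div_aux hA hφ hn ζ hζ hwf hf H2 H1
  have hre₂ : RedAt A w (w e₂') r₂ := by
    have : RedAt A (AlgEquiv.refl : FBar M ≃ₐ[Qb] FBar M) (w (w e₂')) r₂ := by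
      rw [hww]
      exact hre₂'
    exact this
  have hred₂ : RedAt A w (cst K₂ * g) (r₂ ^ n) := by
    have e : w (cst K₂ * g) = cst K₂ * (galFun M φ (galFun M φ (w f)) / w f) := by
      rw [map_mul, AlgEquiv.commutes, hg, map_div₀, hwG, hwG]
    have : RedAt A (AlgEquiv.refl : FBar M ≃ₐ[Qb] FBar M) (w (cst K₂ * g)) (r₂ ^ n) := by
      rw [e]
      exact hred₂'
    exact this
  have hK₁ : K₁ ≠ 0 := by
    rintro rfl
    exact hred₁.ne_zero (pow_ne_zero n hr₁0) (by rw [map_zero, zero_mul])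
  have hK₂ : K₂ ≠ 0 := by
    rintro rfl
    exact hred₂.ne_zero (pow_ne_zero n hr₂0) (by rw [map_zero, zero_mul])
  have hgdiv : ∀ P : Place Qb (FBar M), (n : ℤ) ∣ P.ord g := by
    intro P
    rw [hg, div_eq_mul_inv, P.ord_mul hX2 (inv_ne_zero hf), P.ord_inv]
    exact dvd_add (dvd_ord_galFun φ (dvd_ord_galFun φ hdiv) P) ((dvd_neg).mpr (hdiv P))
  obtain ⟨u, hu⟩ := hkey n hqn A hA φ hφ g hg0 hgdiv K₁ K₂ e₁ (w e₂') r₁ r₂ hK₁ hK₂ hr₁0 hr₂0
    hre₁ hred₁ hre₂ hred₂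
  refine ⟨u, ?_⟩
  have hGg : galFun M φ (galFun M φ g) =
      galFun M φ (galFun M φ (galFun M φ (galFun M φ f))) / galFun M φ (galFun M φ f) := by
    rw [hg, galFun_div, galFun_div]
  rw [hGg] at hu
  exact p1_final_alg u _ _ f n (q ^ 2) hf hX2 hu

end General

end Fermat.Agent.BadRed
end
end MergeWrap_Lib_BadRed_Bridge_P1
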