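import Mathlib
import Fermat.Agent.MUL.Lib.BadRed.Bridge.AuxLevel
import Fermat.Agent.MUL.Lib.BadRed.Bridge.P1
import Fermat.Agent.MUL.Lib.BadRed.Bridge.LevelCast
import Fermat.Agent.MUL.Lib.Kronecker.ConjGens

section MergeWrap_Lib_BadRed_Bridge_AuxPow -- from Lib/BadRed/Bridge/AuxPow.lean

/-!
# Cluster T / S35: the general descent lemma from the auxiliary level  (helper94)

For a prime `ℓ ∤ N` and `n` prime to `ℓ + 1 = [F_{Nℓ} : F_N]`:

* `exists_pow_eq_of_heckeAlphaBar` : `G ∈ F_N`, `G ≠ 0`, is an `n`-th power in `F_{Nℓ}`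
  `⟹` `G` is an `n`-th power in `F_N`  (norm + Bézout);
* `exists_const_mul_pow_of_heckeAlphaBar` : the same up to constants: `G = c u'ⁿ` in `F_{Nℓ}`
  `⟹` `G = c' uⁿ` in `F_N`;
* `dvd_ord_heckeAlphaBar` : if `n ∣ ord_P f` at every place of `F_N` then `n ∣ ord_P f` at every
  place of `F_{Nℓ}`;
* `heckeAlphaBar_galFun` : the inclusion commutes with the Galois action.

Every multiplicative Galois identity "(word in `σ f`, `σ ∈ G_ℚ`) is an `n`-th power" descends from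
the level `N ℓ` to the level `N` (`AuxLevel.powSq_descend` is the case of `τ²f · f / (τ f)²`; for
S35 take the word of `(φ² - q²)(φ² - 1)`).
-/

set_option autoImplicit false
set_option linter.unusedSectionVars false
set_option linter.style.haveILetI false

noncomputable section

open AlgebraicCurve ModularCurve

namespace Fermat.Agent.BadRed.AuxLevel

open Fermat.Agent.F3G

local notation "Qb" => AlgebraicClosure ℚ

section

set_option synthInstance.maxHeartbeats 400000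
set_option maxHeartbeats 1000000

variable (N ℓ : ℕ) [NeZero N] [NeZero ℓ]

/-- the inclusion `F_N ⊆ F_{Nℓ}` commutes with the Galois action (other direction of
`galFun_heckeAlphaBar`). -/
theorem heckeAlphaBar_galFun (τ : Qb ≃ₐ[ℚ] Qb) (x : FBar N) :
    heckeAlphaBar Qb N ℓ (galFun N τ x) = galFun (N * ℓ) τ (heckeAlphaBar Qb N ℓ x) :=
  (galFun_heckeAlphaBar N ℓ τ x).symm

/-- divisibility of the divisor passes to the auxiliary level. -/
theorem dvd_ord_heckeAlphaBar (hℓ : ℓ.Prime) (hℓN : ¬ ℓ ∣ N) {n : ℕ} {f : FBar N}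
    (hdiv : ∀ P : Place Qb (FBar N), (n : ℤ) ∣ P.ord f) (P : Place Qb (FBar (N * ℓ))) :
    (n : ℤ) ∣ P.ord (heckeAlphaBar Qb N ℓ f) := by
  letI := (heckeAlphaBar Qb N ℓ).toRingHom.toAlgebra
  obtain ⟨hfd, -⟩ := Fermat.Agent.Kronecker.finrank_heckeAlphaBar N ℓ hℓ hℓN
  have hint : (heckeAlphaBar Qb N ℓ).toRingHom.IsIntegral := fun x =>
    (Algebra.IsIntegral.isIntegral (R := FBar N) x)
  rw [Place.ord_restrictAlong (heckeAlphaBar Qb N ℓ) hint P f]
  exact Dvd.dvd.mul_left (hdiv _) _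

/-- **general descent**: an element of `F_N` which is an `n`-th power in `F_{Nℓ}` is an `n`-th
power in `F_N`, for `n` prime to `ℓ + 1`. -/
theorem exists_pow_eq_of_heckeAlphaBar (hℓ : ℓ.Prime) (hℓN : ¬ ℓ ∣ N) {n : ℕ}
    (hcop : Nat.Coprime (ℓ + 1) n) {G : FBar N} (hG : G ≠ 0) {u' : FBar (N * ℓ)}
    (hu' : u' ^ n = heckeAlphaBar Qb N ℓ G) : ∃ u : FBar N, u ^ n = G := by
  letI := (heckeAlphaBar Qb N ℓ).toRingHom.toAlgebra
  obtain ⟨hfd, hrank⟩ := Fermat.Agent.Kronecker.finrank_heckeAlphaBar N ℓ hℓ hℓN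
  have hnorm := congrArg (Algebra.norm (FBar N)) hu'
  have e : ∀ x : FBar N, Algebra.norm (FBar N) (heckeAlphaBar Qb N ℓ x) = x ^ (ℓ + 1) := by
    intro x
    have := Algebra.norm_algebraMap (S := FBar (N * ℓ)) x
    rw [hrank] at this
    exact this
  rw [map_pow, e] at hnorm
  exact exists_pow_eq_of_coprime hG hcop hnorm

/-- **general descent, up to constants**: `G = c u'ⁿ` in `F_{Nℓ}` ⟹ `G = c' uⁿ` in `F_N`
(in fact `G` is an `n`-th power: `ℚ̄` is algebraically closed). -/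
theorem exists_const_mul_pow_of_heckeAlphaBar (hℓ : ℓ.Prime) (hℓN : ¬ ℓ ∣ N) {n : ℕ}
    (hn : n ≠ 0) (hcop : Nat.Coprime (ℓ + 1) n) {G : FBar N} (hG : G ≠ 0) {u' : FBar (N * ℓ)}
    {c : Qb} (hu' : algebraMap Qb (FBar (N * ℓ)) c * u' ^ n = heckeAlphaBar Qb N ℓ G) :
    ∃ u : FBar N, u ^ n = G := by
  obtain ⟨b, hb⟩ := IsAlgClosed.exists_pow_nat_eq c (Nat.pos_of_ne_zero hn)
  refine exists_pow_eq_of_heckeAlphaBar N ℓ hℓ hℓN hcop hG
    (u' := algebraMap Qb (FBar (N * ℓ)) b * u') ?_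
  rw [mul_pow, ← map_pow, hb, hu']

end

end Fermat.Agent.BadRed.AuxLevel
end
end MergeWrap_Lib_BadRed_Bridge_AuxPow

section MergeWrap_Lib_BadRed_Bridge_AuxNew -- from Lib/BadRed/Bridge/AuxNew.lean

/-!
# Cluster T / S35: the function form of the Frobenius quartic, by descent from the auxiliary
level  (helper94; statement fixed by helper36)

`frobQuartic_fun` (`Bridge/P1.lean`) needs the Frobenius toric key at the level `M` of the
function `f`, which is available only at the Atkin–Lehner data `D` with `AuxOK D`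
(`q = 2 → 3 ∣ R`, `q = 3 → 2 ∣ R`).  For the other data we pass to the level `M ℓ`
(`ℓ = 3` resp. `2`):

* `frobQuartic_fun_of_aux` : the conclusion of `frobQuartic_fun` at level `M` from the toric key
  at level `M ℓ`, for `n` prime to `ℓ + 1`.  The norm relations (H1), (H2) are identities of
  Laurent series: they pass to `heckeAlphaBar f` as soon as `w' ∘ incl = incl ∘ w` on expansions.
* `coe_wAt_heckeAlphaBar` : this compatibility for `w = wAt D hM`, `w' = wAt D' hM'` with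
  `D'.Q = D.Q`, `D'.R = D.R * ℓ`.
-/

set_option autoImplicit false
set_option linter.unusedSectionVars false
set_option linter.style.haveILetI false

noncomputable section

namespace Fermat.Agent.BadRed

open ModularCurve AlgebraicCurve Fermat.Agent.F3 Fermat.Agent.F3G Fermat.Agent.GaussInt
  Fermat.Agent.AtkinLehner Fermat.Agent.Kronecker

local notation "Qb" => AlgebraicClosure ℚ

section Descent

set_option synthInstance.maxHeartbeats 400000
set_option maxHeartbeats 1000000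

/-- **(P1) + (P2), function form, by descent from the auxiliary level `M ℓ`.** -/
theorem frobQuartic_fun_of_aux {M ℓ : ℕ} [NeZero M] [NeZero ℓ] (hℓ : ℓ.Prime) (hℓM : ¬ ℓ ∣ M)
    (w : FBar M ≃ₐ[Qb] FBar M) (w' : FBar (M * ℓ) ≃ₐ[Qb] FBar (M * ℓ))
    (hww' : ∀ x, w' (w' x) = x)
    (hcompat : ∀ x : FBar M,
      ((w' (heckeAlphaBar Qb M ℓ x) : FBar (M * ℓ)) : LaurentSeries Qb) =
        ((w x : FBar M) : LaurentSeries Qb))
    {q : ℕ} (hq : q.Prime) (hkey : FrobToricKeyFor (M * ℓ) w' q) {n : ℕ} (hqn : ¬ q ∣ n)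
    (hcop : Nat.Coprime (ℓ + 1) n)
    {A : ValuationSubring Qb} (hA : A.LiesOverPrime q)
    {φ : Qb ≃ₐ[ℚ] Qb} (hφ : A.IsFrobeniusAt φ q)
    (hw'G : ∀ z, w' (galFun (M * ℓ) φ z) = galFun (M * ℓ) φ (w' z))
    (ζ : Qbˣ) (hζ : IsPrimitiveRoot ζ q) {f u₁ u₂ : FBar M} (hf : f ≠ 0)
    (hdiv : ∀ P : Place Qb (FBar M), (n : ℤ) ∣ P.ord f) {c₁ c₂ : Qb}
    (H1 : haveI : NeZero q := ⟨hq.ne_zero⟩
      qExpand Qb q ((algebraMap Qb (FBar M) c₁ * u₁ ^ n : FBar M) : LaurentSeries Qb) =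
        qExpand Qb q (f : LaurentSeries Qb) *
          ∏ i ∈ Finset.range q, scaleL (ζ ^ i) ((w f : FBar M) : LaurentSeries Qb))
    (H2 : haveI : NeZero q := ⟨hq.ne_zero⟩
      qExpand Qb q ((algebraMap Qb (FBar M) c₂ * u₂ ^ n : FBar M) : LaurentSeries Qb) =
        qExpand Qb q ((w f : FBar M) : LaurentSeries Qb) *
          ∏ i ∈ Finset.range q, scaleL (ζ ^ i) (f : LaurentSeries Qb)) :
    ∃ U : FBar M,
      U ^ n * galFun M φ (galFun M φ f) ^ (q ^ 2 + 1) =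
        galFun M φ (galFun M φ (galFun M φ (galFun M φ f))) * f ^ (q ^ 2) := by
  haveI : NeZero q := ⟨hq.ne_zero⟩
  haveI : NeZero (M * ℓ) := ⟨Nat.mul_ne_zero (NeZero.ne M) (NeZero.ne ℓ)⟩
  set α := heckeAlphaBar Qb M ℓ with hα
  have hαf : α f ≠ 0 := (map_ne_zero _).mpr hf
  have hdiv' : ∀ P : Place Qb (FBar (M * ℓ)), (n : ℤ) ∣ P.ord (α f) :=
    AuxLevel.dvd_ord_heckeAlphaBar M ℓ hℓ hℓM hdiv
  have ec : ∀ (c : Qb) (u : FBar M),
      ((algebraMap Qb (FBar (M * ℓ)) c * α u ^ n : FBar (M * ℓ)) : LaurentSeries Qb) =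
        ((algebraMap Qb (FBar M) c * u ^ n : FBar M) : LaurentSeries Qb) := by
    intro c u
    rw [coe_cst_mul_pow, coe_cst_mul_pow, hα, coe_heckeAlphaBar]
  have H1' : qExpand Qb q ((algebraMap Qb (FBar (M * ℓ)) c₁ * α u₁ ^ n : FBar (M * ℓ)) :
        LaurentSeries Qb) =
      qExpand Qb q ((α f : FBar (M * ℓ)) : LaurentSeries Qb) *
        ∏ i ∈ Finset.range q, scaleL (ζ ^ i) ((w' (α f) : FBar (M * ℓ)) : LaurentSeries Qb) := by
    rw [ec, hcompat, hα, coe_heckeAlphaBar]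
    exact H1
  have H2' : qExpand Qb q ((algebraMap Qb (FBar (M * ℓ)) c₂ * α u₂ ^ n : FBar (M * ℓ)) :
        LaurentSeries Qb) =
      qExpand Qb q ((w' (α f) : FBar (M * ℓ)) : LaurentSeries Qb) *
        ∏ i ∈ Finset.range q, scaleL (ζ ^ i) ((α f : FBar (M * ℓ)) : LaurentSeries Qb) := by
    rw [ec, hcompat, hα, coe_heckeAlphaBar]
    exact H2
  obtain ⟨U', hU'⟩ := frobQuartic_fun w' hq hww' hkey hqn hA hφ hw'G ζ hζ hαf hdiv' H1' H2'
  -- descend
  have hX2 : galFun M φ (galFun M φ f) ≠ 0 := galFun_ne_zero φ (galFun_ne_zero φ hf)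
  have hX4 : galFun M φ (galFun M φ (galFun M φ (galFun M φ f))) ≠ 0 :=
    galFun_ne_zero φ (galFun_ne_zero φ hX2)
  set G : FBar M := galFun M φ (galFun M φ (galFun M φ (galFun M φ f))) * f ^ (q ^ 2) /
    galFun M φ (galFun M φ f) ^ (q ^ 2 + 1) with hG
  have hG0 : G ≠ 0 :=
    div_ne_zero (mul_ne_zero hX4 (pow_ne_zero _ hf)) (pow_ne_zero _ hX2)
  have hU'' : U' ^ n = α G := by
    have hne : galFun (M * ℓ) φ (galFun (M * ℓ) φ (α f)) ^ (q ^ 2 + 1) ≠ 0 :=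
      pow_ne_zero _ (galFun_ne_zero φ (galFun_ne_zero φ hαf))
    rw [hG, map_div₀, map_mul, map_pow, map_pow, hα, AuxLevel.heckeAlphaBar_galFun,
      AuxLevel.heckeAlphaBar_galFun, AuxLevel.heckeAlphaBar_galFun, AuxLevel.heckeAlphaBar_galFun,
      ← hα, eq_div_iff hne]
    exact hU'
  obtain ⟨U, hU⟩ := AuxLevel.exists_pow_eq_of_heckeAlphaBar M ℓ hℓ hℓM hcop hG0 hU''
  refine ⟨U, ?_⟩
  rw [hU, hG, div_mul_cancel₀ _ (pow_ne_zero _ hX2)]

end Descent

section Compat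

set_option synthInstance.maxHeartbeats 400000
set_option maxHeartbeats 1000000

/-- the expansion of `w_Q (j(q^{d₁ d₂}))` at a level `M = Q R`. -/
theorem coe_wAt_of_coe_eq (D : ALData) {M : ℕ} (hM : M = D.Q * D.R) (y : FBar M)
    (d₁ e₁ d₂ f₂ : ℕ) [NeZero (d₁ * d₂)] [NeZero (e₁ * d₂)]
    (h1 : d₁ * e₁ = D.Q) (h2 : d₂ * f₂ = D.R)
    (hy : (y : LaurentSeries Qb) = qExpand Qb (d₁ * d₂) (jqModC Qb)) :
    ((wAt D hM y : FBar M) : LaurentSeries Qb) = qExpand Qb (e₁ * d₂) (jqModC Qb) := by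
  have hd : d₁ * d₂ ∣ D.Q * D.R := by
    rw [← h1, ← h2]
    exact mul_dvd_mul (Dvd.intro _ rfl) (Dvd.intro _ rfl)
  have hd' : e₁ * d₂ ∣ D.Q * D.R := by
    rw [← h1, ← h2]
    exact mul_dvd_mul (Dvd.intro_left _ rfl) (Dvd.intro _ rfl)
  have e : castF hM y = jF (D.Q * D.R) (d₁ * d₂) hd := by
    apply Subtype.ext
    rw [coe_castF, hy, coe_jF]
  rw [coe_wAt, e, atkinLehner_jF D d₁ e₁ d₂ f₂ h1 h2 hd hd', coe_jF]

/-- **compatibility of the Atkin–Lehner involutions `w_Q` at the levels `M = Q R` and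
`M ℓ = Q (R ℓ)`** (on expansions). -/
theorem coe_wAt_heckeAlphaBar (D D' : ALData) {M ℓ : ℕ} [NeZero M] [NeZero ℓ]
    (hM : M = D.Q * D.R) (hM' : M * ℓ = D'.Q * D'.R) (hQ : D'.Q = D.Q) (hR : D'.R = D.R * ℓ)
    (x : FBar M) :
    ((wAt D' hM' (heckeAlphaBar Qb M ℓ x) : FBar (M * ℓ)) : LaurentSeries Qb) =
      ((wAt D hM x : FBar M) : LaurentSeries Qb) := by
  set Φ₁ : FBar M →+* LaurentSeries Qb :=
    ((modularFunctionFieldBar (M * ℓ)).val.toRingHom.comp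
      ((wAt D' hM').toAlgHom.toRingHom.comp (heckeAlphaBar Qb M ℓ).toRingHom)) with hΦ₁
  set Φ₂ : FBar M →+* LaurentSeries Qb :=
    ((modularFunctionFieldBar M).val.toRingHom.comp (wAt D hM).toAlgHom.toRingHom) with hΦ₂
  have key : Φ₁ = Φ₂ := by
    refine ringHom_ext_FBar M Φ₁ Φ₂ (fun c => ?_) (fun d hdne hd => ?_)
    · show ((wAt D' hM' (heckeAlphaBar Qb M ℓ (algebraMap Qb (FBar M) c)) : FBar (M * ℓ)) :
          LaurentSeries Qb) = ((wAt D hM (algebraMap Qb (FBar M) c) : FBar M) : LaurentSeries Qb)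
      rw [AlgHom.commutes, AlgEquiv.commutes, AlgEquiv.commutes]
      rfl
    · show ((wAt D' hM' (heckeAlphaBar Qb M ℓ (jdBar M d hd)) : FBar (M * ℓ)) :
          LaurentSeries Qb) = ((wAt D hM (jdBar M d hd) : FBar M) : LaurentSeries Qb)
      have hd0 : d ∣ D.Q * D.R := hM ▸ hd
      obtain ⟨d₁, e₁, d₂, f₂, h1, h2, rfl⟩ := exists_factor D hd0
      obtain ⟨p1, p2, p3, p4⟩ := factor_pos D h1 h2
      haveI : NeZero (e₁ * d₂) := ⟨(Nat.mul_pos p2 p3).ne'⟩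
      have h2' : d₂ * (f₂ * ℓ) = D'.R := by
        rw [hR, ← h2, mul_assoc]
      have h1' : d₁ * e₁ = D'.Q := by rw [hQ, h1]
      rw [coe_wAt_of_coe_eq D hM _ d₁ e₁ d₂ f₂ h1 h2 (coe_jdBar M _ hd),
        coe_wAt_of_coe_eq D' hM' _ d₁ e₁ d₂ (f₂ * ℓ) h1' h2'
          (by rw [coe_heckeAlphaBar]; exact coe_jdBar M _ hd)]
  exact congrArg (fun Φ : FBar M →+* LaurentSeries Qb => Φ x) key

/-- **(P1) + (P2), function form, at the level `M = Q R` from the Frobenius toric key at the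
auxiliary datum `D' = (Q, R ℓ)`**, for `w = wAt D hM`. -/
theorem frobQuartic_fun_wAt_of_aux (D D' : ALData) {M ℓ : ℕ} [NeZero M] [NeZero ℓ]
    (hℓ : ℓ.Prime) (hℓM : ¬ ℓ ∣ M)
    (hM : M = D.Q * D.R) (hM' : M * ℓ = D'.Q * D'.R) (hQ : D'.Q = D.Q) (hR : D'.R = D.R * ℓ)
    (hq : D.Q.Prime) (hkey : FrobToricKeyAt D') {n : ℕ} (hqn : ¬ D.Q ∣ n)
    (hcop : Nat.Coprime (ℓ + 1) n)
    {A : ValuationSubring Qb} (hA : A.LiesOverPrime D.Q)
    {φ : Qb ≃ₐ[ℚ] Qb} (hφ : A.IsFrobeniusAt φ D.Q)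
    (ζ : Qbˣ) (hζ : IsPrimitiveRoot ζ D.Q) {f u₁ u₂ : FBar M} (hf : f ≠ 0)
    (hdiv : ∀ P : Place Qb (FBar M), (n : ℤ) ∣ P.ord f) {c₁ c₂ : Qb}
    (H1 : haveI : NeZero D.Q := ⟨hq.ne_zero⟩
      qExpand Qb D.Q ((algebraMap Qb (FBar M) c₁ * u₁ ^ n : FBar M) : LaurentSeries Qb) =
        qExpand Qb D.Q (f : LaurentSeries Qb) *
          ∏ i ∈ Finset.range D.Q, scaleL (ζ ^ i) ((wAt D hM f : FBar M) : LaurentSeries Qb))
    (H2 : haveI : NeZero D.Q := ⟨hq.ne_zero⟩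
      qExpand Qb D.Q ((algebraMap Qb (FBar M) c₂ * u₂ ^ n : FBar M) : LaurentSeries Qb) =
        qExpand Qb D.Q ((wAt D hM f : FBar M) : LaurentSeries Qb) *
          ∏ i ∈ Finset.range D.Q, scaleL (ζ ^ i) (f : LaurentSeries Qb)) :
    ∃ U : FBar M,
      U ^ n * galFun M φ (galFun M φ f) ^ (D.Q ^ 2 + 1) =
        galFun M φ (galFun M φ (galFun M φ (galFun M φ f))) * f ^ (D.Q ^ 2) := by
  have hq' : D'.Q.Prime := hQ ▸ hq
  have hkey' : FrobToricKeyFor (M * ℓ) (wAt D' hM') D.Q := by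
    have := frobToricKeyFor_wAt D' hM' hq' hkey
    rwa [hQ] at this
  exact frobQuartic_fun_of_aux hℓ hℓM (wAt D hM) (wAt D' hM') (wAt_wAt D' hM')
    (coe_wAt_heckeAlphaBar D D' hM hM' hQ hR) hq hkey' hqn hcop hA hφ
    (fun z => wAt_galFun D' hM' φ z) ζ hζ hf hdiv H1 H2

end Compat

end Fermat.Agent.BadRed
end
end MergeWrap_Lib_BadRed_Bridge_AuxNew
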